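/-
P-GATEWAY (c2), helper47: Eichler-Shimura relation and triviality of inertia on the `m`-torsion of
`Pic0` of the modular function field, from
  (C0) `KummerRedInj`  : injectivity of reduction on Kummer classes (deep input, level `N` only),
  (C1) `NormQExpFormula`: the `q`-expansion norm formula,
  (Hnorm) `GaussNormalisable`: every nonzero function has a nonzero reduction after scaling.
No reduction of divisors / correspondences is used.
-/
import Fermat.Agent.Gateway.Kummer.HeckeRed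

set_option autoImplicit false
set_option linter.style.haveILetI false

noncomputable section

namespace Fermat.Agent.Gateway.Kummer

open ModularCurve AlgebraicCurve HahnSeries

section HeckeFrac

variable {L : Type*} [Field L] [Algebra ℚ L] (N ℓ : ℕ) [NeZero N] [NeZero ℓ] [hℓ : Fact ℓ.Prime]
variable (A : ValuationSubring L) {k : Type*} [Field k] [CharP k ℓ] (π : A →+* k)

/-- reduction of `heckeFun` on fractions -/
theorem redRel_heckeFun (ζA : Aˣ) (hζ : π ζA = 1)
    (hC1 : NormQExpFormula L N ℓ (Units.map (A.subtype : A →* L) ζA))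
    {u : FF L N} {ū : LaurentSeries k} (hu : RedRel A π (FF L N) (u : LaurentSeries L) ū) :
    RedRel A π (FF L N) ((heckeFun L N ℓ u : FF L N) : LaurentSeries L)
      (qExpand k ℓ ū * coeffMap (frobenius k ℓ) ū) := by
  obtain ⟨y₁, y₂, h1, h2, h3, h4, h5⟩ := hu
  obtain ⟨Y1, hY1, hY1r⟩ := exists_heckeFun_integral N ℓ A π ζA hζ hC1 y₁ h1
  obtain ⟨Y2, hY2, hY2r⟩ := exists_heckeFun_integral N ℓ A π ζA hζ hC1 y₂ h2
  have hFF : u * (⟨_, h2⟩ : FF L N) = ⟨_, h1⟩ := Subtype.ext h4
  have hH : heckeFun L N ℓ u * heckeFun L N ℓ ⟨_, h2⟩ = heckeFun L N ℓ ⟨_, h1⟩ := by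
    rw [← heckeFun_mul, hFF]
  refine ⟨Y1, Y2, by rw [hY1]; exact Subtype.property _, by rw [hY2]; exact Subtype.property _,
    ?_, ?_, ?_⟩
  · rw [hY2r]
    refine mul_ne_zero ?_ (coeffMap_ne_zero (frobenius k ℓ).injective h3)
    intro h0
    exact h3 (qExpand_injective ℓ (by rw [h0, map_zero]))
  · rw [hY1, hY2]
    exact congrArg Subtype.val hH
  · rw [hY1r, hY2r, ← h5, map_mul, map_mul]
    ring

end HeckeFrac

section Residue

variable {L : Type*} [Field L] [Algebra ℚ L]

/-- the residue field of a valuation subring over `ℓ` has characteristic `ℓ` -/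
theorem charP_residueField {ℓ : ℕ} (hℓ : ℓ.Prime) (A : ValuationSubring L)
    (hA : A.LiesOverPrime ℓ) : CharP (IsLocalRing.ResidueField A) ℓ := by
  have hmem : ((ℓ : A) : L) ∈ A.nonunits := by
    have : ((ℓ : A) : L) = (ℓ : L) := by simp
    rw [this]; exact hA
  have h1 : IsLocalRing.residue A (ℓ : A) = 0 := by
    rw [IsLocalRing.residue_eq_zero_iff, IsLocalRing.mem_maximalIdeal, mem_nonunits_iff]
    intro hu
    rw [ValuationSubring.mem_nonunits_iff_exists_mem_maximalIdeal] at hmem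
    obtain ⟨ha, hmax⟩ := hmem
    exact (IsLocalRing.mem_maximalIdeal _).mp hmax hu
  have h0' : ((ℓ : ℕ) : IsLocalRing.ResidueField A) = 0 := by
    rw [← h1, map_natCast]
  have := CharP.ringChar_of_prime_eq_zero hℓ h0'
  rw [← this]
  exact ringChar.charP _

end Residue

section Galois

variable {L : Type*} [Field L] [Algebra ℚ L] (N : ℕ) [NeZero N] (A : ValuationSubring L)

/-- elements of the decomposition group act compatibly on reductions -/
theorem redRel_decomposition (σ : L ≃ₐ[ℚ] L) (hσ : σ ∈ A.decompositionSubgroup ℚ)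
    {u : LaurentSeries L} {ū : LaurentSeries (IsLocalRing.ResidueField A)}
    (hu : RedRel A (IsLocalRing.residue A) (FF L N) u ū) :
    RedRel A (IsLocalRing.residue A) (FF L N) (coeffMap (σ : L →+* L) u)
      (coeffMap (MulSemiringAction.toRingHom (A.decompositionSubgroup ℚ)
        (IsLocalRing.ResidueField A) ⟨σ, hσ⟩) ū) := by
  refine hu.map (σ : L →+* L)
    (MulSemiringAction.toRingHom (A.decompositionSubgroup ℚ) A ⟨σ, hσ⟩) _ ?_ ?_ ?_
  · intro a
    rfl
  · intro a
    rfl
  · intro x hx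
    exact coeffMap_mem_laurentBaseChange σ hx

/-- a Frobenius lift acts on reductions through the coefficientwise Frobenius -/
theorem redRel_frobenius {ℓ : ℕ} [ExpChar (IsLocalRing.ResidueField A) ℓ] (σ : L ≃ₐ[ℚ] L)
    (hσ : A.IsFrobeniusAt σ ℓ)
    {u : LaurentSeries L} {ū : LaurentSeries (IsLocalRing.ResidueField A)}
    (hu : RedRel A (IsLocalRing.residue A) (FF L N) u ū) :
    RedRel A (IsLocalRing.residue A) (FF L N) (coeffMap (σ : L →+* L) u)
      (coeffMap (frobenius (IsLocalRing.ResidueField A) ℓ) ū) := by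
  have h := redRel_decomposition N A σ hσ.mem_decompositionSubgroup hu
  have he : MulSemiringAction.toRingHom (A.decompositionSubgroup ℚ)
      (IsLocalRing.ResidueField A) ⟨σ, hσ.mem_decompositionSubgroup⟩
      = frobenius (IsLocalRing.ResidueField A) ℓ := by
    ext x
    rw [MulSemiringAction.toRingHom_apply, hσ.smul_residue_eq, frobenius_def]
  rwa [he] at h

/-- an element of the inertia group acts trivially on reductions -/
theorem redRel_inertia (σ : L ≃ₐ[ℚ] L) (hσ : σ ∈ A.inertiaSubgroupIn ℚ)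
    {u : LaurentSeries L} {ū : LaurentSeries (IsLocalRing.ResidueField A)}
    (hu : RedRel A (IsLocalRing.residue A) (FF L N) u ū) :
    RedRel A (IsLocalRing.residue A) (FF L N) (coeffMap (σ : L →+* L) u) ū := by
  obtain ⟨τ, hτ, rfl⟩ := hσ
  have h := redRel_decomposition N A (τ : L ≃ₐ[ℚ] L) τ.2 hu
  have he : MulSemiringAction.toRingHom (A.decompositionSubgroup ℚ)
      (IsLocalRing.ResidueField A) ⟨(τ : L ≃ₐ[ℚ] L), τ.2⟩
      = RingHom.id _ := by
    ext x
    have := (MonoidHom.mem_ker).mp hτ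
    have h2 := congrArg (fun e : RingAut (IsLocalRing.ResidueField A) => e x) this
    simpa using h2
  rw [he] at h
  simpa using h

end Galois

section Main

variable {L : Type*} [Field L] [Algebra ℚ L] (N : ℕ) [NeZero N] (A : ValuationSubring L)

/-- (Hnorm) every nonzero function has a nonzero reduction after scaling by a constant -/
def GaussNormalisable : Prop :=
  ∀ u : FF L N, u ≠ 0 → ∃ c : L, c ≠ 0 ∧ ∃ ū : LaurentSeries (IsLocalRing.ResidueField A), ū ≠ 0 ∧
    RedRel A (IsLocalRing.residue A) (FF L N)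
      (((algebraMap L (FF L N) c * u : FF L N)) : LaurentSeries L) ū

/-- (C0) injectivity of reduction on Kummer classes of exponent `m` -/
def KummerRedInj (m : ℕ) : Prop :=
  ∀ z : FF L N, z ≠ 0 → (∀ P : Place L (FF L N), (m : ℤ) ∣ P.ord z) →
    RedRel A (IsLocalRing.residue A) (FF L N) (z : LaurentSeries L) 1 →
    ∃ (c : L) (w : FF L N), z = algebraMap L (FF L N) c * w ^ m

theorem coe_arithmeticGalois_smul' (σ : L ≃ₐ[ℚ] L) (u : FF L N) :
    ((arithmeticGalois (modularFunctionFieldFull N) σ • u : FF L N) : LaurentSeries L)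
      = coeffMap (σ : L →+* L) (u : LaurentSeries L) := rfl

/-- Triviality of inertia on `m`-torsion. -/
theorem inertia_smul_eq_of_torsion {m : ℕ} (hm : m ≠ 0)
    (hnorm : GaussNormalisable N A) (hC0 : KummerRedInj N A m)
    (σ : L ≃ₐ[ℚ] L) (hσ : σ ∈ A.inertiaSubgroupIn ℚ)
    {x : Pic0 L (FF L N)} (hx : (m : ℤ) • x = 0) : σ • x = x := by
  set g := arithmeticGalois (modularFunctionFieldFull N) σ with hg
  show g • x = x
  obtain ⟨u₀, hu₀⟩ := exists_isKummerRep hx
  obtain ⟨c, hc, ū, hū, hred⟩ := hnorm u₀ hu₀.ne_zero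
  have hu := hu₀.const_mul hc
  set u : FF L N := algebraMap L (FF L N) c * u₀ with hudef
  have h4 : IsKummerRep m (g • x - x) ((g • u) / u) := (hu.smul g).div hu
  have hredz : RedRel A (IsLocalRing.residue A) (FF L N)
      (((g • u) / u : FF L N) : LaurentSeries L) 1 := by
    have h1 := redRel_inertia N A σ hσ hred
    have h2 := h1.div hred hū
    rw [div_self hū] at h2
    exact h2
  obtain ⟨c', w, hcw⟩ := hC0 _ h4.ne_zero (fun P => h4.dvd_ord P) hredz
  exact sub_eq_zero.mp (h4.eq_zero_of_eq_const_mul_pow hm hcw)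

variable (ℓ : ℕ) [NeZero ℓ] [hℓ : Fact ℓ.Prime]

/-- Eichler-Shimura relation on `m`-torsion: `σ² - T_ℓ σ + ℓ = 0` for Frobenius lifts `σ`. -/
theorem frobenius_quadratic_of_torsion {m : ℕ} (hm : m ≠ 0) (hA : A.LiesOverPrime ℓ)
    (hHecke : HeckeInputsAlong L N ℓ)
    (ζA : Aˣ) (hζ : IsLocalRing.residue A ζA = 1)
    (hC1 : NormQExpFormula L N ℓ (Units.map (A.subtype : A →* L) ζA))
    (hnorm : GaussNormalisable N A) (hC0 : KummerRedInj N A m)
    (σ : L ≃ₐ[ℚ] L) (hσ : A.IsFrobeniusAt σ ℓ)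
    {x : Pic0 L (FF L N)} (hx : (m : ℤ) • x = 0) :
    σ • σ • x - heckeOperatorAlong L N ℓ (σ • x) + ℓ • x = 0 := by
  haveI : CharP (IsLocalRing.ResidueField A) ℓ := charP_residueField hℓ.out A hA
  set g := arithmeticGalois (modularFunctionFieldFull N) σ with hg
  show g • g • x - heckeOperatorAlong L N ℓ (g • x) + ℓ • x = 0
  obtain ⟨u₀, hu₀⟩ := exists_isKummerRep hx
  obtain ⟨c, hc, ū, hū, hred⟩ := hnorm u₀ hu₀.ne_zero
  have hu := hu₀.const_mul hc
  set u : FF L N := algebraMap L (FF L N) c * u₀ with hudef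
  -- Kummer representatives
  have h1 : IsKummerRep m (g • g • x) (g • g • u) := (hu.smul g).smul g
  have h2 : IsKummerRep m (heckeOperatorAlong L N ℓ (g • x)) (heckeFun L N ℓ (g • u)) :=
    isKummerRep_heckeOperatorAlong L N ℓ hHecke (hu.smul g)
  have h3 : IsKummerRep m (ℓ • x) (u ^ ℓ) := hu.pow ℓ
  have h4 : IsKummerRep m (g • g • x - heckeOperatorAlong L N ℓ (g • x) + ℓ • x)
      ((g • g • u) / heckeFun L N ℓ (g • u) * u ^ ℓ) := (h1.div h2).mul h3
  -- reductions
  set Fr := coeffMap (frobenius (IsLocalRing.ResidueField A) ℓ) with hFr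
  have hFr_ne : ∀ {y : LaurentSeries (IsLocalRing.ResidueField A)}, y ≠ 0 → Fr y ≠ 0 :=
    fun hy => coeffMap_ne_zero (frobenius (IsLocalRing.ResidueField A) ℓ).injective hy
  have r1 : RedRel A (IsLocalRing.residue A) (FF L N) ((g • u : FF L N) : LaurentSeries L)
      (Fr ū) := redRel_frobenius N A σ hσ hred
  have r2 : RedRel A (IsLocalRing.residue A) (FF L N) ((g • g • u : FF L N) : LaurentSeries L)
      (Fr (Fr ū)) := redRel_frobenius N A σ hσ r1
  have r3 : RedRel A (IsLocalRing.residue A) (FF L N)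
      ((heckeFun L N ℓ (g • u) : FF L N) : LaurentSeries L) (ū ^ ℓ * Fr (Fr ū)) := by
    have := redRel_heckeFun N ℓ A (IsLocalRing.residue A) ζA hζ hC1 r1
    rwa [← laurent_pow_char] at this
  have r4 : RedRel A (IsLocalRing.residue A) (FF L N) ((u ^ ℓ : FF L N) : LaurentSeries L)
      (ū ^ ℓ) := hred.pow ℓ
  have hne : ū ^ ℓ * Fr (Fr ū) ≠ 0 := mul_ne_zero (pow_ne_zero _ hū) (hFr_ne (hFr_ne hū))
  have hredz : RedRel A (IsLocalRing.residue A) (FF L N)
      ((((g • g • u) / heckeFun L N ℓ (g • u) * u ^ ℓ : FF L N)) : LaurentSeries L) 1 := by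
    have h5 := (r2.div r3 hne).mul r4
    have e : Fr (Fr ū) / (ū ^ ℓ * Fr (Fr ū)) * ū ^ ℓ = 1 := by
      have a1 : ū ^ ℓ ≠ 0 := pow_ne_zero _ hū
      have a2 : Fr (Fr ū) ≠ 0 := hFr_ne (hFr_ne hū)
      field_simp
    rw [e] at h5
    exact h5
  obtain ⟨c', w, hcw⟩ := hC0 _ h4.ne_zero (fun P => h4.dvd_ord P) hredz
  exact h4.eq_zero_of_eq_const_mul_pow hm hcw

end Main

end Fermat.Agent.Gateway.Kummer
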