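/-
P-GATEWAY (c2), helper47: (C0) at a good level `M = lcm N 4` or `lcm N 9` implies (C0) at level `N`
(via helper38's Kummer descent along the inclusion `F_N ⊆ F_M`).
-/
import Fermat.Agent.Gateway.Kummer.Final
import Fermat.Agent.Gateway.Descent.Main

set_option autoImplicit false

noncomputable section

namespace Fermat.Agent.Gateway.Kummer

open ModularCurve AlgebraicCurve HahnSeries Fermat.Agent.Gateway.Descent

section General

variable {L : Type*} [Field L] {A : ValuationSubring L} {k : Type*} [Field k] {π : A →+* k}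

/-- `RedRel` is monotone in the field -/
theorem RedRel.mono {F F' : IntermediateField L (LaurentSeries L)} (h : F ≤ F')
    {u : LaurentSeries L} {ū : LaurentSeries k} (hu : RedRel A π F u ū) : RedRel A π F' u ū := by
  obtain ⟨y₁, y₂, h1, h2, h3, h4, h5⟩ := hu
  exact ⟨y₁, y₂, h h1, h h2, h3, h4, h5⟩

end General

section Level

variable {N M : ℕ} [NeZero N] [NeZero M]

/-- (C0) descends from a good level `M` to level `N` -/
theorem kummerRedInj_of_level (hM : M = Nat.lcm N 4 ∨ M = Nat.lcm N 9)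
    (A : ValuationSubring (AlgebraicClosure ℚ)) {m : ℕ} (hm : 0 < m)
    (h : KummerRedInj M A m) : KummerRedInj N A m := by
  intro z hz hdiv hred
  have hNM : N ∣ M := dvd_of_eq_lcm_or hM
  have hle : FF (AlgebraicClosure ℚ) N ≤ FF (AlgebraicClosure ℚ) M := Incl.le_of_dvd hNM
  -- transport to level `M`
  have hz' : Incl.incl hNM z ≠ 0 := by
    intro h0
    exact hz ((Incl.incl hNM).toRingHom.injective (by rw [AlgHom.toRingHom_eq_coe, RingHom.coe_coe, h0, map_zero]))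
  have hdiv' : ∀ P : Place (AlgebraicClosure ℚ) (FF (AlgebraicClosure ℚ) M),
      (m : ℤ) ∣ P.ord (Incl.incl hNM z) := by
    intro P
    rw [Place.ord_restrictAlong (Incl.incl hNM) (Incl.isIntegral_incl hNM).isIntegral P z]
    exact Dvd.dvd.mul_left (hdiv _) _
  have hred' : RedRel A (IsLocalRing.residue A) (FF (AlgebraicClosure ℚ) M)
      ((Incl.incl hNM z : FF (AlgebraicClosure ℚ) M) : LaurentSeries (AlgebraicClosure ℚ)) 1 := by
    rw [Incl.coe_incl]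
    exact hred.mono hle
  obtain ⟨c, w, hcw⟩ := h (Incl.incl hNM z) hz' hdiv' hred'
  have hc : c ≠ 0 := by
    rintro rfl
    exact hz' (by rw [hcw, map_zero, zero_mul])
  obtain ⟨c', w', -, hcw'⟩ := kummer_descent hM m hm z hz hdiv ⟨c, w, hc, hcw⟩
  exact ⟨c', w', hcw'⟩

end Level

section GoodLevels

/-- the hypothesis `hC0` of `Kummer/Export.lean` (all levels `N`, all `ℓ ∤ m N`) from (C0) at the
good levels only: `4 ∣ M` for `ℓ` odd, `9 ∣ M` for `ℓ = 2`. -/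
theorem kummerRedInj_of_goodLevels
    (hgood : ∀ (M : ℕ) [NeZero M] (m ℓ : ℕ), 0 < m → ℓ.Prime → ¬ ℓ ∣ m * M →
      ((ℓ ≠ 2 ∧ 4 ∣ M) ∨ (ℓ = 2 ∧ 9 ∣ M)) →
      ∀ A : ValuationSubring (AlgebraicClosure ℚ), A.LiesOverPrime ℓ → KummerRedInj M A m)
    (N : ℕ) [NeZero N] (m ℓ : ℕ) (hℓ : ℓ.Prime) (hdvd : ¬ ℓ ∣ m * N)
    (A : ValuationSubring (AlgebraicClosure ℚ)) (hA : A.LiesOverPrime ℓ) :
    KummerRedInj N A m := by
  have hm : 0 < m := by
    rcases Nat.eq_zero_or_pos m with rfl | h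
    · exact absurd (by rw [zero_mul]; exact dvd_zero ℓ) hdvd
    · exact h
  have hℓm : ¬ ℓ ∣ m := fun h => hdvd (Dvd.dvd.mul_right h N)
  have hℓN : ¬ ℓ ∣ N := fun h => hdvd (Dvd.dvd.mul_left h m)
  by_cases h2 : ℓ = 2
  · -- `ℓ = 2`: use `M = lcm N 9`
    have hM0 : Nat.lcm N 9 ≠ 0 := Nat.lcm_ne_zero (NeZero.ne N) (by norm_num)
    have : NeZero (Nat.lcm N 9) := ⟨hM0⟩
    have hℓM : ¬ ℓ ∣ Nat.lcm N 9 := by
      intro h
      have h9 : Nat.lcm N 9 ∣ N * 9 := Nat.lcm_dvd_mul N 9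
      rcases (Nat.Prime.dvd_mul hℓ).mp (h.trans h9) with h' | h'
      · exact hℓN h'
      · rw [h2] at h'; omega
    have hdvd' : ¬ ℓ ∣ m * Nat.lcm N 9 := fun h =>
      ((Nat.Prime.dvd_mul hℓ).mp h).elim hℓm hℓM
    exact kummerRedInj_of_level (Or.inr rfl) A hm
      (hgood (Nat.lcm N 9) m ℓ hm hℓ hdvd' (Or.inr ⟨h2, Nat.dvd_lcm_right N 9⟩) A hA)
  · -- `ℓ` odd: use `M = lcm N 4`
    have hM0 : Nat.lcm N 4 ≠ 0 := Nat.lcm_ne_zero (NeZero.ne N) (by norm_num)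
    have : NeZero (Nat.lcm N 4) := ⟨hM0⟩
    have hℓM : ¬ ℓ ∣ Nat.lcm N 4 := by
      intro h
      have h4 : Nat.lcm N 4 ∣ N * 4 := Nat.lcm_dvd_mul N 4
      rcases (Nat.Prime.dvd_mul hℓ).mp (h.trans h4) with h' | h'
      · exact hℓN h'
      · have h22 : ℓ ∣ 2 * 2 := by simpa using h'
        rcases (Nat.Prime.dvd_mul hℓ).mp h22 with h'' | h'' <;>
          exact h2 ((Nat.prime_dvd_prime_iff_eq hℓ Nat.prime_two).mp h'')
    have hdvd' : ¬ ℓ ∣ m * Nat.lcm N 4 := fun h =>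
      ((Nat.Prime.dvd_mul hℓ).mp h).elim hℓm hℓM
    exact kummerRedInj_of_level (Or.inl rfl) A hm
      (hgood (Nat.lcm N 4) m ℓ hm hℓ hdvd' (Or.inl ⟨h2, Nat.dvd_lcm_right N 4⟩) A hA)

end GoodLevels

end Fermat.Agent.Gateway.Kummer
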