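/-
P-GATEWAY (c2), helper47: the single remaining hypothesis of Tier 1, `C0AtGoodLevels`
(= helper92's C0 theorem at the good levels `4 ∣ M` (`ℓ` odd), `9 ∣ M` (`ℓ = 2`)), and its
consequence (C0) at every level (via `Kummer/LevelGlue.lean`, i.e. helper38's Kummer descent).
-/
import Fermat.Agent.Gateway.Kummer.LevelGlue

set_option autoImplicit false

noncomputable section

namespace Fermat.Agent.Gateway.Kummer

open ModularCurve AlgebraicCurve

/-- **(C0) at the good levels**: the single remaining input of Tier 1. -/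
def C0AtGoodLevels : Prop :=
  ∀ (M : ℕ) [NeZero M] (m ℓ : ℕ), 0 < m → ℓ.Prime → ¬ ℓ ∣ m * M →
    ((ℓ ≠ 2 ∧ 4 ∣ M) ∨ (ℓ = 2 ∧ 9 ∣ M)) →
    ∀ A : ValuationSubring (AlgebraicClosure ℚ), A.LiesOverPrime ℓ → KummerRedInj M A m

/-- (C0) at every level, from the good levels -/
theorem kummerRedInj_of_C0 (h : C0AtGoodLevels) (N : ℕ) [NeZero N] (m ℓ : ℕ) (hℓ : ℓ.Prime)
    (hdvd : ¬ ℓ ∣ m * N) (A : ValuationSubring (AlgebraicClosure ℚ)) (hA : A.LiesOverPrime ℓ) :
    KummerRedInj N A m :=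
  kummerRedInj_of_goodLevels (fun M _ m ℓ hm hℓ hd hg A hA => h M m ℓ hm hℓ hd hg A hA)
    N m ℓ hℓ hdvd A hA

end Fermat.Agent.Gateway.Kummer
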