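/-
P-GATEWAY (c2), helper47: bridge between `RedRel` (Kummer/RedRel.lean) and the shared Gauss ring
definitions `Ov`, `redV`, `Oq` of `Fermat.Agent.Gateway.Red` (helper82, Gateway/Red/Defs.lean).
-/
import Fermat.Agent.Gateway.Kummer.Final
import Fermat.Agent.Gateway.Red.Defs

set_option autoImplicit false

noncomputable section

namespace Fermat.Agent.Gateway.Kummer

open ModularCurve AlgebraicCurve HahnSeries Fermat.Agent.Gateway.Red

section General

variable {L : Type*} [Field L] (A : ValuationSubring L) {k : Type*} [Field k] (π : A →+* k)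
variable (F : IntermediateField L (LaurentSeries L))

/-- `RedRel` implies membership in the Gauss ring of `F`, with the same reduction -/
theorem RedRel.mem_Ov_and_redV {u : F} {ū : LaurentSeries k}
    (h : RedRel A π F (u : LaurentSeries L) ū) :
    ∃ hu : u ∈ Ov A π F, redV A π F ⟨u, hu⟩ = ū := by
  obtain ⟨y₁, y₂, _, _, h3, h4, h5⟩ := h
  have hu : u ∈ Ov A π F := ⟨y₁, y₂, h3, h4⟩
  refine ⟨hu, ?_⟩
  have hspec := redV_spec A π F ⟨u, hu⟩ (a := y₁) (b := y₂) h3 h4
  have h3' : coeffMap π y₂ ≠ 0 := h3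
  have : (redV A π F ⟨u, hu⟩ - ū) * coeffMap π y₂ = 0 := by
    rw [sub_mul, h5]
    exact sub_eq_zero.mpr hspec
  rcases mul_eq_zero.mp this with h0 | h0
  · exact sub_eq_zero.mp h0
  · exact absurd h0 h3'

/-- quotients of elements of `Oq` with nonzero reductions satisfy `RedRel` -/
theorem redRel_of_Oq {u : F} {y₁ y₂ : F} (h1 : y₁ ∈ Oq A F) (h2 : y₂ ∈ Oq A F)
    (hy : u * y₂ = y₁)
    (hred2 : ∀ b : LaurentSeries A, embA A b = (y₂ : LaurentSeries L) → redA A π b ≠ 0) :
    ∃ ū : LaurentSeries k, RedRel A π F (u : LaurentSeries L) ū ∧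
      ∀ (a b : LaurentSeries A), embA A a = (y₁ : LaurentSeries L) →
        embA A b = (y₂ : LaurentSeries L) → ū * redA A π b = redA A π a := by
  obtain ⟨a, ha⟩ := h1
  obtain ⟨b, hb⟩ := h2
  have hb0 : coeffMap π b ≠ 0 := hred2 b hb
  refine ⟨coeffMap π a / coeffMap π b, ⟨a, b, ?_, ?_, hb0, ?_, ?_⟩, ?_⟩
  · show embA A a ∈ F
    rw [ha]; exact y₁.2
  · show embA A b ∈ F
    rw [hb]; exact y₂.2
  · show (u : LaurentSeries L) * embA A b = embA A a
    rw [ha, hb]
    exact congrArg Subtype.val hy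
  · rw [div_mul_cancel₀ _ hb0]
  · intro a' b' ha' hb'
    have e1 : a' = a := embA_injective A (ha'.trans ha.symm)
    have e2 : b' = b := embA_injective A (hb'.trans hb.symm)
    rw [e1, e2]
    exact div_mul_cancel₀ _ hb0

end General

section Modular

variable {L : Type*} [Field L] [Algebra ℚ L] (N : ℕ) [NeZero N] (A : ValuationSubring L)

/-- (Hnorm) from the strong normalisation statement in terms of `Oq`:
every nonzero `f` is, up to a constant, a quotient of two elements of `Oq` with nonzero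
reductions. -/
theorem gaussNormalisable_of_Oq
    (h : ∀ f : FF L N, f ≠ 0 → ∃ c : L, c ≠ 0 ∧ ∃ a b : LaurentSeries A,
      embA A a ∈ FF L N ∧ embA A b ∈ FF L N ∧ redA A (IsLocalRing.residue A) a ≠ 0 ∧
      redA A (IsLocalRing.residue A) b ≠ 0 ∧
      ((algebraMap L (FF L N) c * f : FF L N) : LaurentSeries L) * embA A b = embA A a) :
    GaussNormalisable N A := by
  intro u hu
  obtain ⟨c, hc, a, b, ha, hb, hra, hrb, hab⟩ := h u hu
  refine ⟨c, hc, coeffMap (IsLocalRing.residue A) a / coeffMap (IsLocalRing.residue A) b,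
    div_ne_zero hra hrb, ⟨a, b, ha, hb, hrb, hab, ?_⟩⟩
  exact div_mul_cancel₀ _ hrb

/-- (C0) from its formulation with the shared Gauss ring `Ov` / `redV` -/
theorem kummerRedInj_of_Ov {m : ℕ}
    (h : ∀ z : FF L N, z ≠ 0 → (∀ P : Place L (FF L N), (m : ℤ) ∣ P.ord z) →
      ∀ hz : z ∈ Ov A (IsLocalRing.residue A) (FF L N),
        redV A (IsLocalRing.residue A) (FF L N) ⟨z, hz⟩ = 1 →
        ∃ (c : L) (w : FF L N), z = algebraMap L (FF L N) c * w ^ m) :
    KummerRedInj N A m := by
  intro z hz hdiv hred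
  obtain ⟨hzO, hzr⟩ := hred.mem_Ov_and_redV
  exact h z hz hdiv hzO hzr

end Modular

end Fermat.Agent.Gateway.Kummer
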