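/-
P-GATEWAY (c2), helper47: the substitution `t ↦ ζ t` on Laurent series (`ζ` a unit).
-/
import Mathlib
import Fermat.Prelude.Def_ModularCurve_X0ModL

set_option autoImplicit false

noncomputable section

namespace Fermat.Agent.Gateway.Kummer

open ModularCurve HahnSeries

section

variable {R S : Type*} [CommRing R] [CommRing S]

/-- underlying function of `twist` -/
def twistFun (ζ : Rˣ) (y : LaurentSeries R) : LaurentSeries R where
  coeff n := ((ζ ^ n : Rˣ) : R) * y.coeff n
  isPWO_support' := y.isPWO_support.mono (by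
    intro n hn
    simp only [Function.mem_support, ne_eq] at hn ⊢
    intro h
    exact hn (by rw [h, mul_zero]))

@[simp]
theorem twistFun_coeff (ζ : Rˣ) (y : LaurentSeries R) (n : ℤ) :
    (twistFun ζ y).coeff n = ((ζ ^ n : Rˣ) : R) * y.coeff n := rfl

theorem twistFun_support (ζ : Rˣ) (y : LaurentSeries R) :
    (twistFun ζ y).support = y.support := by
  ext n
  simp only [HahnSeries.mem_support, twistFun_coeff, ne_eq]
  constructor
  · intro h h0
    exact h (by rw [h0, mul_zero])
  · intro h h0
    apply h
    have h1 : (((ζ ^ n)⁻¹ : Rˣ) : R) * (((ζ ^ n : Rˣ) : R) * y.coeff n) = 0 := by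
      rw [h0, mul_zero]
    rwa [← mul_assoc, ← Units.val_mul, inv_mul_cancel, Units.val_one, one_mul] at h1

theorem twistFun_mul (ζ : Rˣ) (x y : LaurentSeries R) :
    twistFun ζ (x * y) = twistFun ζ x * twistFun ζ y := by
  ext n
  rw [twistFun_coeff, HahnSeries.coeff_mul, HahnSeries.coeff_mul, Finset.mul_sum]
  have hset : Finset.antidiagonal (twistFun ζ x).isPWO_support (twistFun ζ y).isPWO_support n
      = Finset.antidiagonal x.isPWO_support y.isPWO_support n := by
    ext ij
    simp only [Finset.mem_antidiagonal, twistFun_support]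
  rw [hset]
  refine Finset.sum_congr rfl fun ij hij => ?_
  rw [Finset.mem_antidiagonal] at hij
  rw [twistFun_coeff, twistFun_coeff, ← hij.2.2, zpow_add, Units.val_mul]
  ring

/-- the substitution `t ↦ ζ t` as a ring endomorphism of Laurent series -/
def twist (ζ : Rˣ) : LaurentSeries R →+* LaurentSeries R where
  toFun := twistFun ζ
  map_one' := by
    ext n
    rw [twistFun_coeff, HahnSeries.coeff_one]
    split_ifs with h
    · subst h; simp
    · simp
  map_mul' := twistFun_mul ζ
  map_zero' := by
    ext n
    simp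
  map_add' x y := by
    ext n
    simp [mul_add]

@[simp]
theorem twist_coeff (ζ : Rˣ) (y : LaurentSeries R) (n : ℤ) :
    (twist ζ y).coeff n = ((ζ ^ n : Rˣ) : R) * y.coeff n := rfl

@[simp]
theorem twist_one (y : LaurentSeries R) : twist (1 : Rˣ) y = y := by
  ext n
  simp

theorem coeffMap_twist (f : R →+* S) (ζ : Rˣ) (y : LaurentSeries R) :
    coeffMap f (twist ζ y) = twist (Units.map (f : R →* S) ζ) (coeffMap f y) := by
  ext n
  simp only [coeffMap_coeff, twist_coeff, map_mul]
  congr 1
  rw [← map_zpow]
  rfl

end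

end Fermat.Agent.Gateway.Kummer
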