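/-
P-GATEWAY (c2), helper47: Kummer representatives of torsion divisor classes.

`IsKummerRep m x u` says that the class `x ∈ Pic0 K F` is represented by a degree-zero divisor `D`
with `m • D = div u`.  All statements are formal (no Riemann-Roch, no reduction theory):
existence for `m`-torsion classes, additivity, compatibility with semilinear automorphisms and with
correspondences `ψ_* φ^*` (through the norm), and the criterion "`u` an `m`-th power up to a
constant implies `x = 0`".
-/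
import Fermat.Prelude.Def_AlgebraicCurve_Correspondence

set_option autoImplicit false
set_option linter.style.haveILetI false

noncomputable section

namespace Fermat.Agent.Gateway.Kummer

open AlgebraicCurve

section Basic

variable {K F : Type*} [Field K] [Field F] [Algebra K F]

/-- the order of a nonzero constant at any place is zero -/
theorem ord_algebraMap_eq_zero (P : Place K F) {c : K} (hc : c ≠ 0) :
    P.ord (algebraMap K F c) = 0 := by
  have h1 : algebraMap K F c ∈ P.toValuationSubring := P.algebraMap_mem' c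
  have h2 : algebraMap K F c⁻¹ ∈ P.toValuationSubring := P.algebraMap_mem' c⁻¹
  have hu : IsUnit (⟨algebraMap K F c, h1⟩ : P.toValuationSubring) := by
    refine IsUnit.of_mul_eq_one (⟨algebraMap K F c⁻¹, h2⟩ : P.toValuationSubring) ?_
    ext
    show algebraMap K F c * algebraMap K F c⁻¹ = 1
    rw [← map_mul, mul_inv_cancel₀ hc, map_one]
  have := P.ord_coe_unit hu.unit
  simpa using this

/-- `u` is a Kummer representative of `x` at exponent `m`:
`x = [D]` with `m • D = div u`. -/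
def IsKummerRep (m : ℕ) (x : Pic0 K F) (u : F) : Prop :=
  u ≠ 0 ∧ ∃ D : Divisor.degZero (K := K) (F := F), Pic0.mk D = x ∧
    ∀ P : Place K F, (m : ℤ) * (D : Divisor K F) P = P.ord u

theorem IsKummerRep.ne_zero {m : ℕ} {x : Pic0 K F} {u : F} (h : IsKummerRep m x u) : u ≠ 0 :=
  h.1

theorem IsKummerRep.dvd_ord {m : ℕ} {x : Pic0 K F} {u : F} (h : IsKummerRep m x u)
    (P : Place K F) : (m : ℤ) ∣ P.ord u := by
  obtain ⟨_, D, _, hD⟩ := h
  exact ⟨_, (hD P).symm⟩

theorem mk_eq_zero_iff (D : Divisor.degZero (K := K) (F := F)) :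
    Pic0.mk D = 0 ↔ (D : Divisor K F) ∈ Divisor.principal (K := K) (F := F) := by
  rw [Pic0.mk, QuotientAddGroup.eq_zero_iff, AddSubgroup.mem_addSubgroupOf]

/-- every `m`-torsion class has a Kummer representative -/
theorem exists_isKummerRep {m : ℕ} {x : Pic0 K F} (hx : (m : ℤ) • x = 0) :
    ∃ u : F, IsKummerRep m x u := by
  obtain ⟨D, rfl⟩ := Pic0.mk_surjective x
  have h1 : Pic0.mk ((m : ℤ) • D) = 0 := by
    have : Pic0.mk ((m : ℤ) • D) = (m : ℤ) • Pic0.mk D := rfl
    rw [this, hx]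
  rw [mk_eq_zero_iff] at h1
  obtain ⟨f, hf, hDf⟩ := h1
  refine ⟨f, hf, D, rfl, fun P => ?_⟩
  rw [← hDf P]
  simp

theorem IsKummerRep.zsmul_eq_zero {m : ℕ} {x : Pic0 K F} {u : F} (h : IsKummerRep m x u) :
    (m : ℤ) • x = 0 := by
  obtain ⟨hu, D, rfl, hD⟩ := h
  have : (m : ℤ) • Pic0.mk D = Pic0.mk ((m : ℤ) • D) := rfl
  rw [this, mk_eq_zero_iff]
  refine ⟨u, hu, fun P => ?_⟩
  rw [← hD P]
  simp

theorem isKummerRep_zero_one (m : ℕ) : IsKummerRep m (0 : Pic0 K F) (1 : F) :=
  ⟨one_ne_zero, 0, rfl, fun P => by simp⟩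

theorem IsKummerRep.mul {m : ℕ} {x y : Pic0 K F} {u v : F} (hx : IsKummerRep m x u)
    (hy : IsKummerRep m y v) : IsKummerRep m (x + y) (u * v) := by
  obtain ⟨hu, D, rfl, hD⟩ := hx
  obtain ⟨hv, E, rfl, hE⟩ := hy
  refine ⟨mul_ne_zero hu hv, D + E, rfl, fun P => ?_⟩
  rw [P.ord_mul hu hv, ← hD P, ← hE P]
  simp [mul_add]

theorem IsKummerRep.inv {m : ℕ} {x : Pic0 K F} {u : F} (hx : IsKummerRep m x u) :
    IsKummerRep m (-x) u⁻¹ := by
  obtain ⟨hu, D, rfl, hD⟩ := hx
  refine ⟨inv_ne_zero hu, -D, rfl, fun P => ?_⟩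
  rw [P.ord_inv, ← hD P]
  simp

theorem IsKummerRep.div {m : ℕ} {x y : Pic0 K F} {u v : F} (hx : IsKummerRep m x u)
    (hy : IsKummerRep m y v) : IsKummerRep m (x - y) (u / v) := by
  rw [sub_eq_add_neg, div_eq_mul_inv]
  exact hx.mul hy.inv

theorem IsKummerRep.pow {m : ℕ} {x : Pic0 K F} {u : F} (hx : IsKummerRep m x u) (n : ℕ) :
    IsKummerRep m (n • x) (u ^ n) := by
  induction n with
  | zero => simpa using isKummerRep_zero_one (K := K) (F := F) m
  | succ n ih =>
    rw [succ_nsmul, pow_succ]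
    exact ih.mul hx

/-- Kummer representatives may be rescaled by nonzero constants -/
theorem IsKummerRep.const_mul {m : ℕ} {x : Pic0 K F} {u : F} (hx : IsKummerRep m x u) {c : K}
    (hc : c ≠ 0) : IsKummerRep m x (algebraMap K F c * u) := by
  obtain ⟨hu, D, rfl, hD⟩ := hx
  have hc' : algebraMap K F c ≠ 0 := (map_ne_zero _).mpr hc
  refine ⟨mul_ne_zero hc' hu, D, rfl, fun P => ?_⟩
  rw [P.ord_mul hc' hu, ord_algebraMap_eq_zero P hc, zero_add, hD P]

/-- if a Kummer representative is a constant times an `m`-th power, the class is trivial -/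
theorem IsKummerRep.eq_zero_of_eq_const_mul_pow {m : ℕ} (hm : m ≠ 0) {x : Pic0 K F} {u : F}
    (hx : IsKummerRep m x u) {c : K} {w : F} (huw : u = algebraMap K F c * w ^ m) : x = 0 := by
  obtain ⟨hu, D, rfl, hD⟩ := hx
  have hc : c ≠ 0 := by
    rintro rfl
    exact hu (by rw [huw, map_zero, zero_mul])
  have hw : w ≠ 0 := by
    rintro rfl
    exact hu (by rw [huw, zero_pow hm, mul_zero])
  rw [mk_eq_zero_iff]
  refine ⟨w, hw, fun P => ?_⟩
  have h1 := hD P
  rw [huw, P.ord_mul ((map_ne_zero _).mpr hc) (pow_ne_zero _ hw), ord_algebraMap_eq_zero P hc,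
    zero_add, ← zpow_natCast, P.ord_zpow] at h1
  have hm' : (m : ℤ) ≠ 0 := by exact_mod_cast hm
  exact mul_left_cancel₀ hm' h1

theorem IsKummerRep.eq_zero_of_eq_pow {m : ℕ} (hm : m ≠ 0) {x : Pic0 K F} {u : F}
    (hx : IsKummerRep m x u) {w : F} (huw : u = w ^ m) : x = 0 :=
  hx.eq_zero_of_eq_const_mul_pow hm (c := 1) (w := w) (by rw [map_one, one_mul, huw])

/-- compatibility with semilinear automorphisms (arithmetic Galois action) -/
theorem IsKummerRep.smul {m : ℕ} {x : Pic0 K F} {u : F} (hx : IsKummerRep m x u)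
    (g : SemilinearAut K F) : IsKummerRep m (g • x) (g • u) := by
  obtain ⟨hu, D, rfl, hD⟩ := hx
  refine ⟨by simpa using hu, SemilinearAut.degZeroSMulHom g D, (SemilinearAut.pic0_smul_mk g D).symm,
    fun P => ?_⟩
  rw [SemilinearAut.coe_degZeroSMulHom, SemilinearAut.divisor_smul_apply, hD (g⁻¹ • P)]
  have h := SemilinearAut.ord_smul g (g⁻¹ • P) u
  rw [smul_inv_smul] at h
  exact h.symm

end Basic

section Correspondence

variable {K F F' : Type*} [Field K] [Field F] [Field F'] [Algebra K F] [Algebra K F']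
variable [HasPrincipalDivisors K F']

/-- the norm along an algebra hom `ψ : F → F'` -/
def normAlong (ψ : F →ₐ[K] F') (y : F') : F :=
  letI := algebraAlong ψ
  Algebra.norm F y

/-- compatibility with correspondences `ψ_* φ^*`: the Kummer representative of the image class
is `Norm_ψ (φ u)`. -/
theorem IsKummerRep.correspondence {m : ℕ} {x : Pic0 K F} {u : F} (hx : IsKummerRep m x u)
    (φ ψ : F →ₐ[K] F') (hφ : φ.toRingHom.IsIntegral) (hψ : ψ.toRingHom.IsIntegral)
    (hFI : FundamentalIdentityAlong K φ hφ) (hfin : FiniteAlong K ψ)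
    (hN : NormFormulaAlong K ψ hfin) :
    IsKummerRep m (Pic0.correspondence φ ψ hφ hψ hFI hfin hN x) (normAlong ψ (φ u)) := by
  obtain ⟨hu, D, rfl, hD⟩ := hx
  have hφu : φ u ≠ 0 := (map_ne_zero φ).mpr hu
  refine ⟨?_, Pic0.degZeroCorrespondence φ ψ hφ hψ hFI D, (Pic0.correspondence_mk _ _ _ _ _ _ _ D).symm,
    fun P => ?_⟩
  · letI := algebraAlong ψ
    haveI : Module.Finite F F' := hfin
    exact Algebra.norm_ne_zero_iff.mpr hφu
  · rw [Pic0.coe_degZeroCorrespondence, Divisor.correspondence_apply]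
    -- the divisor `m • D` is the divisor of `u`
    set E : Divisor K F := (m : ℤ) • (D : Divisor K F) with hE
    have hEu : ∀ v : Place K F, E v = v.ord u := fun v => by
      rw [hE, ← hD v]; simp
    -- pull back
    have hpull : ∀ w : Place K F', Divisor.pullbackAlong φ hφ E w = w.ord (φ u) := by
      intro w
      letI := algebraAlong φ
      haveI := isScalarTower_along (K := K) φ
      haveI := isIntegral_along (K := K) φ hφ
      exact Divisor.pullback_apply_eq_ord (F' := F') hEu w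
    -- push forward
    have hpush : Divisor.pushforwardAlong ψ hψ (Divisor.pullbackAlong φ hφ E) P
        = P.ord (normAlong ψ (φ u)) := by
      letI := algebraAlong ψ
      haveI := isScalarTower_along (K := K) ψ
      haveI := isIntegral_along (K := K) ψ hψ
      haveI : Module.Finite F F' := hfin
      exact hN (φ u) hφu _ hpull P
    rw [← hpush, hE, map_zsmul, map_zsmul]
    simp

end Correspondence

section Quadratic

variable {K F : Type*} [Field K] [Field F] [Algebra K F]

/-- Abstract Eichler-Shimura argument on torsion.  `ρ` is a "reduction" homomorphism on `Fˣ`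
which detects `m`-th powers on Kummer representatives (hypothesis `hC0`); `T` is an operator on
`Pic0` acting on Kummer representatives through `Tf`; if the reductions satisfy
`ρ(φ² u) ρ(u)^ℓ = ρ(Tf (φ u))` then `φ² - T φ + ℓ` kills the `m`-torsion. -/
theorem quadratic_of_reduction {Γ : Type*} [CommGroup Γ] (ρ : Fˣ →* Γ) {m : ℕ} (hm : m ≠ 0)
    (hC0 : ∀ u : Fˣ, (∀ P : Place K F, (m : ℤ) ∣ P.ord (u : F)) → ρ u = 1 →
      ∃ (c : K) (w : F), (u : F) = algebraMap K F c * w ^ m)
    (φ : SemilinearAut K F) (T : Pic0 K F →+ Pic0 K F) (Tf : F → F) (ℓ : ℕ)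
    (hT : ∀ (x : Pic0 K F) (u : F), IsKummerRep m x u → IsKummerRep m (T x) (Tf u))
    (hrel : ∀ (u : Fˣ) (z : Fˣ), (z : F) = (φ • φ • (u : F)) * (u : F) ^ ℓ / Tf (φ • (u : F)) →
      ρ z = 1)
    {x : Pic0 K F} (hx : (m : ℤ) • x = 0) :
    φ • φ • x - T (φ • x) + ℓ • x = 0 := by
  obtain ⟨u, hu⟩ := exists_isKummerRep hx
  have h1 : IsKummerRep m (φ • φ • x) (φ • φ • u) := (hu.smul φ).smul φ
  have h2 : IsKummerRep m (T (φ • x)) (Tf (φ • u)) := hT _ _ (hu.smul φ)
  have h3 : IsKummerRep m (ℓ • x) (u ^ ℓ) := hu.pow ℓ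
  have h4 : IsKummerRep m (φ • φ • x - T (φ • x) + ℓ • x)
      ((φ • φ • u) / Tf (φ • u) * u ^ ℓ) := (h1.div h2).mul h3
  have hz0 := h4.ne_zero
  obtain ⟨c, w, hcw⟩ := hC0 (Units.mk0 _ hz0) (fun P => h4.dvd_ord P)
    (hrel (Units.mk0 u hu.ne_zero) (Units.mk0 _ hz0) (by
      simp only [Units.val_mk0]
      ring))
  exact h4.eq_zero_of_eq_const_mul_pow hm hcw

/-- Abstract unramifiedness on torsion: if `σ` acts trivially after reduction, it acts trivially
on the `m`-torsion. -/
theorem smul_eq_self_of_reduction {Γ : Type*} [CommGroup Γ] (ρ : Fˣ →* Γ) {m : ℕ} (hm : m ≠ 0)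
    (hC0 : ∀ u : Fˣ, (∀ P : Place K F, (m : ℤ) ∣ P.ord (u : F)) → ρ u = 1 →
      ∃ (c : K) (w : F), (u : F) = algebraMap K F c * w ^ m)
    (σ : SemilinearAut K F)
    (hrel : ∀ (u : Fˣ) (z : Fˣ), (z : F) = (σ • (u : F)) / (u : F) → ρ z = 1)
    {x : Pic0 K F} (hx : (m : ℤ) • x = 0) :
    σ • x = x := by
  obtain ⟨u, hu⟩ := exists_isKummerRep hx
  have h4 : IsKummerRep m (σ • x - x) ((σ • u) / u) := (hu.smul σ).div hu
  have hz0 := h4.ne_zero
  obtain ⟨c, w, hcw⟩ := hC0 (Units.mk0 _ hz0) (fun P => h4.dvd_ord P)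
    (hrel (Units.mk0 u hu.ne_zero) (Units.mk0 _ hz0) (by simp only [Units.val_mk0]))
  exact sub_eq_zero.mp (h4.eq_zero_of_eq_const_mul_pow hm hcw)

end Quadratic

end Fermat.Agent.Gateway.Kummer
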