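/-
P-GATEWAY (c2), helper47: the characteristic-`p` identity `f ^ p = (Fr f)(q ^ p)` for Laurent series,
in the Prelude language (`qExpand`, `coeffMap`).
-/
import Mathlib
import Fermat.Prelude.Def_ModularCurve_X0ModL

set_option autoImplicit false

noncomputable section

namespace Fermat.Agent.Gateway.Kummer

open ModularCurve HahnSeries

section

variable {R : Type*} [CommRing R]

/-- `qExpand` on power series is `PowerSeries.expand`. -/
theorem qExpand_ofPowerSeries (p : ℕ) [NeZero p] (h : PowerSeries R) :
    qExpand R p (HahnSeries.ofPowerSeries ℤ R h)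
      = HahnSeries.ofPowerSeries ℤ R (h.expand p (NeZero.ne p)) := by
  ext m
  by_cases hm : (p : ℤ) ∣ m
  · obtain ⟨j, rfl⟩ := hm
    rw [qExpand_coeff_mul]
    rcases le_or_gt 0 j with hj | hj
    · lift j to ℕ using hj
      rw [HahnSeries.ofPowerSeries_apply_coeff]
      have : (p : ℤ) * (j : ℤ) = ((p * j : ℕ) : ℤ) := by push_cast; ring
      rw [this, HahnSeries.ofPowerSeries_apply_coeff, PowerSeries.coeff_expand_mul]
    · have hneg : (p : ℤ) * j < 0 :=
        mul_neg_of_pos_of_neg (by exact_mod_cast Nat.pos_of_ne_zero (NeZero.ne p)) hj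
      rw [ofPowerSeries_coeff_of_neg _ hj, ofPowerSeries_coeff_of_neg _ hneg]
  · rw [qExpand_coeff_of_not_dvd p _ hm]
    rcases le_or_gt 0 m with hm0 | hm0
    · lift m to ℕ using hm0
      rw [HahnSeries.ofPowerSeries_apply_coeff, PowerSeries.coeff_expand_of_not_dvd]
      intro h'
      exact hm (by exact_mod_cast h')
    · rw [ofPowerSeries_coeff_of_neg _ hm0]

end

section CharP

variable {k : Type*} [CommRing k] (p : ℕ) [hp : Fact p.Prime] [CharP k p] [NeZero p]

/-- In characteristic `p`, `f ^ p = (Fr f)(q ^ p)` for Laurent series. -/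
theorem laurent_pow_char (f : LaurentSeries k) :
    f ^ p = qExpand k p (coeffMap (frobenius k p) f) := by
  have hdec := LaurentSeries.single_order_mul_powerSeriesPart f
  set g := f.powerSeriesPart with hg
  set n := f.order with hn
  have hf : f = HahnSeries.single n (1 : k) * HahnSeries.ofPowerSeries ℤ k g := hdec.symm
  have hgp : g ^ p = (g.expand p hp.out.ne_zero).map (frobenius k p) :=
    (MvPowerSeries.map_frobenius_expand p hp.out.ne_zero (f := g)).symm
  have h1 : (HahnSeries.single n (1 : k)) ^ p = HahnSeries.single ((p : ℤ) * n) (1 : k) := by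
    rw [HahnSeries.single_pow, one_pow]
    simp
  have h2 : qExpand k p (coeffMap (frobenius k p) (HahnSeries.single n (1 : k)))
      = HahnSeries.single ((p : ℤ) * n) (1 : k) := by
    rw [coeffMap_single, qExpand_single, map_one]
  have h3 : (HahnSeries.ofPowerSeries ℤ k g) ^ p
      = qExpand k p (coeffMap (frobenius k p) (HahnSeries.ofPowerSeries ℤ k g)) := by
    rw [coeffMap_ofPowerSeries, qExpand_ofPowerSeries, ← map_pow, hgp, PowerSeries.map_expand]
  rw [hf, mul_pow, map_mul, map_mul, h1, h2, h3]

end CharP

end Fermat.Agent.Gateway.Kummer
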