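/-
P-GATEWAY (c2), helper47: coefficientwise reduction of Laurent series as a relation.

`RedRel A π F u ū`: the Laurent series `u` over `L` is a quotient `y₁ / y₂` of `A`-integral
Laurent series lying in `F`, with `ȳ₂ ≠ 0`, and `ū = ȳ₁ / ȳ₂`.
-/
import Mathlib
import Fermat.Prelude.Def_ModularCurve_X0ModL

set_option autoImplicit false

noncomputable section

namespace Fermat.Agent.Gateway.Kummer

open ModularCurve HahnSeries

section Supply

variable {R S : Type*} [CommRing R] [CommRing S]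

theorem coeffMap_qExpand (f : R →+* S) (n : ℕ) [NeZero n] (x : LaurentSeries R) :
    coeffMap f (qExpand R n x) = qExpand S n (coeffMap f x) := by
  ext k
  by_cases hk : (n : ℤ) ∣ k
  · obtain ⟨m, rfl⟩ := hk
    rw [coeffMap_coeff, qExpand_coeff_mul, qExpand_coeff_mul, coeffMap_coeff]
  · rw [coeffMap_coeff, qExpand_coeff_of_not_dvd n _ hk, qExpand_coeff_of_not_dvd n _ hk,
      map_zero]

theorem coeffMap_injective {f : R →+* S} (hf : Function.Injective f) :
    Function.Injective (coeffMap f) := by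
  intro x y h
  ext k
  apply hf
  rw [← coeffMap_coeff, ← coeffMap_coeff, h]

theorem coeffMap_ne_zero {f : R →+* S} (hf : Function.Injective f) {x : LaurentSeries R}
    (hx : x ≠ 0) : coeffMap f x ≠ 0 := fun h =>
  hx (coeffMap_injective hf (by rw [h, map_zero]))

end Supply

section Lift

variable {L : Type*} [Field L] (A : ValuationSubring L)

/-- a Laurent series over `L` with coefficients in `A` comes from a Laurent series over `A` -/
theorem exists_coeffMap_subtype_eq {x : LaurentSeries L} (hx : ∀ n, x.coeff n ∈ A) :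
    ∃ Y : LaurentSeries A, coeffMap A.subtype Y = x := by
  refine ⟨⟨fun n => ⟨x.coeff n, hx n⟩, x.isPWO_support.mono ?_⟩, ?_⟩
  · intro n hn
    simp only [Function.mem_support, ne_eq] at hn ⊢
    intro h
    exact hn (Subtype.ext h)
  · ext n
    rfl

theorem coeffMap_subtype_injective : Function.Injective (coeffMap A.subtype) :=
  coeffMap_injective Subtype.val_injective

theorem coeff_coeffMap_subtype_mem (Y : LaurentSeries A) (n : ℤ) :
    (coeffMap A.subtype Y).coeff n ∈ A := by
  rw [coeffMap_coeff]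
  exact (Y.coeff n).2

end Lift

section RedRel

variable {L : Type*} [Field L] (A : ValuationSubring L) {k : Type*} [Field k] (π : A →+* k)
variable (F : IntermediateField L (LaurentSeries L))

/-- `u` reduces to `ū` -/
def RedRel (u : LaurentSeries L) (ū : LaurentSeries k) : Prop :=
  ∃ y₁ y₂ : LaurentSeries A, coeffMap A.subtype y₁ ∈ F ∧ coeffMap A.subtype y₂ ∈ F ∧
    coeffMap π y₂ ≠ 0 ∧ u * coeffMap A.subtype y₂ = coeffMap A.subtype y₁ ∧
    ū * coeffMap π y₂ = coeffMap π y₁

variable {A π F}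

theorem RedRel.mem {u : LaurentSeries L} {ū : LaurentSeries k} (h : RedRel A π F u ū) : u ∈ F := by
  obtain ⟨y₁, y₂, h1, h2, h3, h4, _⟩ := h
  have hy2 : coeffMap A.subtype y₂ ≠ 0 := by
    intro h0
    apply h3
    have : y₂ = 0 := coeffMap_subtype_injective A (by rw [h0, map_zero])
    rw [this, map_zero]
  have : u = coeffMap A.subtype y₁ * (coeffMap A.subtype y₂)⁻¹ := by
    rw [← h4, mul_assoc, mul_inv_cancel₀ hy2, mul_one]
  rw [this]
  exact F.mul_mem h1 (F.inv_mem h2)

theorem redRel_one : RedRel A π F 1 1 :=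
  ⟨1, 1, by rw [map_one]; exact F.one_mem, by rw [map_one]; exact F.one_mem,
    by rw [map_one]; exact one_ne_zero, by simp, by simp⟩

theorem RedRel.mul {u v : LaurentSeries L} {ū vb : LaurentSeries k} (hu : RedRel A π F u ū)
    (hv : RedRel A π F v vb) : RedRel A π F (u * v) (ū * vb) := by
  obtain ⟨y₁, y₂, h1, h2, h3, h4, h5⟩ := hu
  obtain ⟨z₁, z₂, g1, g2, g3, g4, g5⟩ := hv
  refine ⟨y₁ * z₁, y₂ * z₂, by rw [map_mul]; exact F.mul_mem h1 g1,
    by rw [map_mul]; exact F.mul_mem h2 g2, by rw [map_mul]; exact mul_ne_zero h3 g3, ?_, ?_⟩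
  · rw [map_mul, map_mul, ← h4, ← g4]; ring
  · rw [map_mul, map_mul, ← h5, ← g5]; ring

theorem RedRel.ne_zero {u : LaurentSeries L} {ū : LaurentSeries k} (hu : RedRel A π F u ū)
    (hū : ū ≠ 0) : u ≠ 0 := by
  obtain ⟨y₁, y₂, h1, h2, h3, h4, h5⟩ := hu
  rintro rfl
  rw [zero_mul] at h4
  have : y₁ = 0 := coeffMap_subtype_injective A (by rw [← h4, map_zero])
  rw [this, map_zero] at h5
  exact (mul_ne_zero hū h3) h5

theorem RedRel.inv {u : LaurentSeries L} {ū : LaurentSeries k} (hu : RedRel A π F u ū)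
    (hū : ū ≠ 0) : RedRel A π F u⁻¹ ū⁻¹ := by
  have hu0 := hu.ne_zero hū
  obtain ⟨y₁, y₂, h1, h2, h3, h4, h5⟩ := hu
  refine ⟨y₂, y₁, h2, h1, ?_, ?_, ?_⟩
  · rw [← h5]; exact mul_ne_zero hū h3
  · rw [← h4, ← mul_assoc, inv_mul_cancel₀ hu0, one_mul]
  · rw [← h5, ← mul_assoc, inv_mul_cancel₀ hū, one_mul]

theorem RedRel.div {u v : LaurentSeries L} {ū vb : LaurentSeries k} (hu : RedRel A π F u ū)
    (hv : RedRel A π F v vb) (hvb : vb ≠ 0) : RedRel A π F (u / v) (ū / vb) := by
  rw [div_eq_mul_inv, div_eq_mul_inv]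
  exact hu.mul (hv.inv hvb)

theorem RedRel.pow {u : LaurentSeries L} {ū : LaurentSeries k} (hu : RedRel A π F u ū) (n : ℕ) :
    RedRel A π F (u ^ n) (ū ^ n) := by
  induction n with
  | zero => simpa using redRel_one
  | succ n ih => rw [pow_succ, pow_succ]; exact ih.mul hu

/-- the reduction is unique -/
theorem RedRel.unique {u : LaurentSeries L} {ū ū' : LaurentSeries k} (h : RedRel A π F u ū)
    (h' : RedRel A π F u ū') : ū = ū' := by
  obtain ⟨y₁, y₂, _, _, h3, h4, h5⟩ := h
  obtain ⟨z₁, z₂, _, _, g3, g4, g5⟩ := h'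
  have hcross : y₁ * z₂ = z₁ * y₂ := by
    apply coeffMap_subtype_injective A
    rw [map_mul, map_mul, ← h4, ← g4]; ring
  have hred := congrArg (coeffMap π) hcross
  rw [map_mul, map_mul, ← h5, ← g5] at hred
  have : (ū - ū') * (coeffMap π y₂ * coeffMap π z₂) = 0 := by
    rw [sub_mul]
    have e1 : ū * (coeffMap π y₂ * coeffMap π z₂) = ū * coeffMap π y₂ * coeffMap π z₂ := by ring
    have e2 : ū' * (coeffMap π y₂ * coeffMap π z₂) = ū' * coeffMap π z₂ * coeffMap π y₂ := by ring
    rw [e1, e2, hred, sub_self]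
  rcases mul_eq_zero.mp this with h0 | h0
  · exact sub_eq_zero.mp h0
  · exact absurd h0 (mul_ne_zero h3 g3)

/-- transport along a ring endomorphism of `L` preserving `A` and `F`, inducing `τb` on `k` -/
theorem RedRel.map {u : LaurentSeries L} {ū : LaurentSeries k} (hu : RedRel A π F u ū)
    (τ : L →+* L) (τA : A →+* A) (τb : k →+* k)
    (hτA : ∀ a : A, ((τA a : A) : L) = τ (a : L)) (hτb : ∀ a : A, π (τA a) = τb (π a))
    (hF : ∀ x ∈ F, coeffMap τ x ∈ F) :
    RedRel A π F (coeffMap τ u) (coeffMap τb ū) := by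
  obtain ⟨y₁, y₂, h1, h2, h3, h4, h5⟩ := hu
  have hsub : ∀ y : LaurentSeries A,
      coeffMap A.subtype (coeffMap τA y) = coeffMap τ (coeffMap A.subtype y) := by
    intro y
    ext n
    simp only [coeffMap_coeff]
    exact hτA _
  have hpi : ∀ y : LaurentSeries A, coeffMap π (coeffMap τA y) = coeffMap τb (coeffMap π y) := by
    intro y
    ext n
    simp only [coeffMap_coeff]
    exact hτb _
  refine ⟨coeffMap τA y₁, coeffMap τA y₂, by rw [hsub]; exact hF _ h1, by rw [hsub]; exact hF _ h2,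
    ?_, ?_, ?_⟩
  · rw [hpi]
    exact coeffMap_ne_zero τb.injective h3
  · rw [hsub, hsub, ← map_mul, h4]
  · rw [hpi, hpi, ← map_mul, h5]

end RedRel

end Fermat.Agent.Gateway.Kummer
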