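/-
P-GATEWAY (c2), helper47: reduction of the multiplicative Hecke operator on functions.

`heckeFun u = Norm_α (β u)` is the function-level incarnation of the Prelude's `T_ℓ = α_* β^*`.
Assuming the `q`-expansion norm formula `NormQExpFormula` (C1):
  `(heckeFun u)(t^ℓ) = u(t^(ℓ²)) * ∏_{b<ℓ} u(ζ^b t)`,
we show: if `u` reduces to `ū ≠ 0` modulo a valuation subring `A` with residue characteristic `ℓ`
(and `ζ ≡ 1`), then `heckeFun u` reduces to `ū(q^ℓ) * Fr(ū)`.
-/
import Fermat.Agent.Gateway.Kummer.Basic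
import Fermat.Agent.Gateway.Kummer.LaurentFrob
import Fermat.Agent.Gateway.Kummer.RedRel
import Fermat.Agent.Gateway.Kummer.Twist
import Fermat.Prelude.Def_ModularCurve_HeckeModule

set_option autoImplicit false
set_option linter.style.haveILetI false

noncomputable section

namespace Fermat.Agent.Gateway.Kummer

open ModularCurve AlgebraicCurve HahnSeries

section Defs

variable (L : Type*) [Field L] [Algebra ℚ L] (N ℓ : ℕ) [NeZero N] [NeZero ℓ]

/-- the function field of level `N` over `L` -/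
abbrev FF : IntermediateField L (LaurentSeries L) :=
  laurentBaseChange L (modularFunctionFieldFull N)

/-- multiplicative Hecke operator on functions: `Norm_α (β u)` -/
def heckeFun (u : FF L N) : FF L N :=
  normAlong (heckeAlphaBar L N ℓ) (heckeBetaBar L N ℓ u)

theorem heckeFun_one : heckeFun L N ℓ 1 = 1 := by
  unfold heckeFun normAlong
  rw [map_one]
  letI := algebraAlong (heckeAlphaBar L N ℓ)
  exact map_one (Algebra.norm _)

theorem heckeFun_mul (u v : FF L N) :
    heckeFun L N ℓ (u * v) = heckeFun L N ℓ u * heckeFun L N ℓ v := by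
  unfold heckeFun normAlong
  rw [map_mul]
  letI := algebraAlong (heckeAlphaBar L N ℓ)
  exact map_mul (Algebra.norm _) _ _

/-- the Hecke operator on `Pic0` acts on Kummer representatives through `heckeFun` -/
theorem isKummerRep_heckeOperatorAlong (h : HeckeInputsAlong L N ℓ) {m : ℕ}
    {x : Pic0 L (FF L N)} {u : FF L N} (hx : IsKummerRep m x u) :
    IsKummerRep m (heckeOperatorAlong L N ℓ x) (heckeFun L N ℓ u) := by
  obtain ⟨hα, hβ, hP, hfin, hFI, hN⟩ := h
  haveI := hP
  rw [heckeOperatorAlong_eq hα hβ hFI hfin hN]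
  exact hx.correspondence (heckeBetaBar L N ℓ) (heckeAlphaBar L N ℓ) hβ hα hFI hfin hN

/-- (C1) the `q`-expansion norm formula, with `t^ℓ = q`:
`(heckeFun u)(t^ℓ) = u(t^(ℓ²)) * ∏_{b<ℓ} u(ζ^b t)`. -/
def NormQExpFormula (ζ : Lˣ) : Prop :=
  ∀ u : FF L N, qExpand L ℓ ((heckeFun L N ℓ u : FF L N) : LaurentSeries L)
    = qExpand L (ℓ * ℓ) (u : LaurentSeries L)
      * ∏ b ∈ Finset.range ℓ, twist (ζ ^ b) (u : LaurentSeries L)

end Defs

section Reduction

variable {L : Type*} [Field L] [Algebra ℚ L] (N ℓ : ℕ) [NeZero N] [NeZero ℓ] [hℓ : Fact ℓ.Prime]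
variable (A : ValuationSubring L) {k : Type*} [Field k] [CharP k ℓ] (π : A →+* k)

/-- integral elements: `heckeFun y` is again integral, and its reduction is `ȳ(q^ℓ) * Fr ȳ`. -/
theorem exists_heckeFun_integral (ζA : Aˣ) (hζ : π ζA = 1)
    (hC1 : NormQExpFormula L N ℓ (Units.map (A.subtype : A →* L) ζA))
    (Y : LaurentSeries A) (hY : coeffMap A.subtype Y ∈ FF L N) :
    ∃ Y' : LaurentSeries A,
      coeffMap A.subtype Y' = ((heckeFun L N ℓ ⟨_, hY⟩ : FF L N) : LaurentSeries L) ∧
      coeffMap π Y' = qExpand k ℓ (coeffMap π Y) * coeffMap (frobenius k ℓ) (coeffMap π Y) := by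
  set Z : LaurentSeries A := qExpand A (ℓ * ℓ) Y * ∏ b ∈ Finset.range ℓ, twist (ζA ^ b) Y with hZ
  have hZ1 : coeffMap A.subtype Z
      = qExpand L ℓ ((heckeFun L N ℓ ⟨_, hY⟩ : FF L N) : LaurentSeries L) := by
    rw [hC1 ⟨_, hY⟩, hZ, map_mul, map_prod, coeffMap_qExpand]
    congr 1
    refine Finset.prod_congr rfl fun b _ => ?_
    rw [coeffMap_twist, map_pow]
  have hcoeff : ∀ n, (((heckeFun L N ℓ ⟨_, hY⟩ : FF L N) : LaurentSeries L)).coeff n ∈ A := by
    intro n
    rw [← qExpand_coeff_mul ℓ _ n, ← hZ1]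
    exact coeff_coeffMap_subtype_mem A Z _
  obtain ⟨Y', hY'⟩ := exists_coeffMap_subtype_eq A hcoeff
  refine ⟨Y', hY', ?_⟩
  have hZ2 : qExpand A ℓ Y' = Z := by
    apply coeffMap_subtype_injective A
    rw [coeffMap_qExpand, hY', hZ1]
  have hζ' : Units.map (π : A →* k) ζA = 1 := Units.ext hζ
  have hred : qExpand k ℓ (coeffMap π Y')
      = qExpand k ℓ (qExpand k ℓ (coeffMap π Y) * coeffMap (frobenius k ℓ) (coeffMap π Y)) := by
    rw [← coeffMap_qExpand, hZ2, hZ, map_mul, map_prod, coeffMap_qExpand, map_mul,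
      qExpand_qExpand, ← laurent_pow_char]
    congr 1
    have : ∀ b ∈ Finset.range ℓ, coeffMap π (twist (ζA ^ b) Y) = coeffMap π Y := by
      intro b _
      rw [coeffMap_twist, map_pow, hζ', one_pow, twist_one]
    rw [Finset.prod_congr rfl this, Finset.prod_const, Finset.card_range]
  exact qExpand_injective ℓ hred

end Reduction

end Fermat.Agent.Gateway.Kummer
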