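/-
P-GATEWAY (c2), helper47: the S18 glue in its "Tier 1" (Kummer) form.

For the abstract place reduction `r` of the hypothesis `ReductionInputsAlong A π N`:
injectivity of `reductionAlong A π N` on `m`-torsion follows from
* (C0) injectivity of reduction on Kummer classes of exponent `m` (level `N`),
* "a function of `F_k` with trivial divisor is constant".
The lifting of elements of `F_k` to `F_L` (easy direction of "residue field of the Gauss valuation
is `F_k`") is proved here.
-/
import Fermat.Agent.Gateway.Kummer.Final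
import Fermat.Prelude.Def_ModularCurve_ReductionModL

set_option autoImplicit false

noncomputable section

namespace Fermat.Agent.Gateway.Kummer

open ModularCurve AlgebraicCurve HahnSeries

section Lift

variable {L : Type*} [Field L] [Algebra ℚ L] (A : ValuationSubring L)
variable {k : Type*} [Field k] (π : A →+* k) (N : ℕ) [NeZero N]

/-- the ring of reductions of the `A`-integral elements of `F_L(N)` -/
def intRedSubring : Subring (LaurentSeries k) :=
  Subring.map (coeffMap π) (Subring.comap (coeffMap A.subtype) (FF L N).toSubring)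

theorem mem_intRedSubring_iff {g : LaurentSeries k} :
    g ∈ intRedSubring A π N ↔
      ∃ y : LaurentSeries A, coeffMap A.subtype y ∈ FF L N ∧ coeffMap π y = g := by
  constructor
  · rintro ⟨y, hy, rfl⟩
    exact ⟨y, hy, rfl⟩
  · rintro ⟨y, hy, rfl⟩
    exact ⟨y, hy, rfl⟩

theorem jqNModC_mem_FF {d : ℕ} [NeZero d] (hd : d ∣ N) : jqNModC L d ∈ FF L N := by
  have h1 : coeffEmb L (qExpand ℚ d jq) = jqNModC L d := by
    have := coeffMap_jqNModC (algebraMap ℚ L) d
    rw [jqNModC_rat] at this
    exact this
  rw [← h1]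
  exact coeffEmb_mem_laurentBaseChange L (jqd_mem_full N hd)

theorem algebraMap_mem_intRedSubring (hπ : Function.Surjective π) (c : k) :
    algebraMap k (LaurentSeries k) c ∈ intRedSubring A π N := by
  obtain ⟨a, rfl⟩ := hπ c
  rw [mem_intRedSubring_iff]
  refine ⟨HahnSeries.single 0 a, ?_, ?_⟩
  · rw [coeffMap_single]
    have : HahnSeries.single (0 : ℤ) (A.subtype a) = algebraMap L (LaurentSeries L) (a : L) := by
      rw [algebraMap_laurentSeries_eq_single]; rfl
    rw [this]
    exact (FF L N).algebraMap_mem _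
  · rw [coeffMap_single, algebraMap_laurentSeries_eq_single]

theorem divisorExpansionsC_subset_intRedSubring :
    divisorExpansionsC k N ⊆ (intRedSubring A π N : Set (LaurentSeries k)) := by
  rintro x ⟨d, hd0, hd, rfl⟩
  have := hd0
  rw [SetLike.mem_coe, mem_intRedSubring_iff]
  refine ⟨jqNModC A d, ?_, ?_⟩
  · rw [coeffMap_jqNModC]
    exact jqNModC_mem_FF N hd
  · rw [coeffMap_jqNModC]
    rfl

/-- the subalgebra version of `intRedSubring` -/
def intRedSubalgebra (hπ : Function.Surjective π) : Subalgebra k (LaurentSeries k) :=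
  { (intRedSubring A π N).toSubsemiring with
    algebraMap_mem' := fun c => algebraMap_mem_intRedSubring A π N hπ c }

theorem mem_intRedSubalgebra_iff (hπ : Function.Surjective π) {g : LaurentSeries k} :
    g ∈ intRedSubalgebra A π N hπ ↔ g ∈ intRedSubring A π N := Iff.rfl

/-- every nonzero element of `F_k(N)` lifts to `F_L(N)` along `RedRel` -/
theorem exists_redRel_of_mem_Fk (hπ : Function.Surjective π) {g : LaurentSeries k}
    (hg : g ∈ modularFunctionFieldFullC k N) (hg0 : g ≠ 0) :
    ∃ w : LaurentSeries L, RedRel A π (FF L N) w g := by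
  have hle : Algebra.adjoin k (divisorExpansionsC k N) ≤ intRedSubalgebra A π N hπ :=
    Algebra.adjoin_le (divisorExpansionsC_subset_intRedSubring A π N)
  rw [modularFunctionFieldFullC, IntermediateField.mem_adjoin_iff_div] at hg
  obtain ⟨a, ha, b, hb, rfl⟩ := hg
  have ha' := hle ha
  have hb' := hle hb
  rw [mem_intRedSubalgebra_iff, mem_intRedSubring_iff] at ha' hb'
  obtain ⟨ya, hya, rfl⟩ := ha'
  obtain ⟨yb, hyb, rfl⟩ := hb'
  have hb0 : coeffMap π yb ≠ 0 := by
    rintro h0
    exact hg0 (by rw [h0, div_zero])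
  have hyb0 : coeffMap A.subtype yb ≠ 0 := by
    intro h0
    have : yb = 0 := coeffMap_subtype_injective A (by rw [h0, map_zero])
    exact hb0 (by rw [this, map_zero])
  refine ⟨coeffMap A.subtype ya / coeffMap A.subtype yb, ya, yb, hya, hyb, hb0, ?_, ?_⟩
  · rw [div_mul_cancel₀ _ hyb0]
  · rw [div_mul_cancel₀ _ hb0]

/-- constants reduce to constants -/
theorem redRel_algebraMap (a : A) :
    RedRel A π (FF L N) (algebraMap L (LaurentSeries L) (a : L))
      (algebraMap k (LaurentSeries k) (π a)) := by
  refine ⟨HahnSeries.single 0 a, 1, ?_, ?_, ?_, ?_, ?_⟩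
  · rw [coeffMap_single]
    have : HahnSeries.single (0 : ℤ) (A.subtype a) = algebraMap L (LaurentSeries L) (a : L) := by
      rw [algebraMap_laurentSeries_eq_single]; rfl
    rw [this]
    exact (FF L N).algebraMap_mem _
  · rw [map_one]; exact (FF L N).one_mem
  · rw [map_one]; exact one_ne_zero
  · rw [map_one, mul_one, coeffMap_single, algebraMap_laurentSeries_eq_single]; rfl
  · rw [map_one, mul_one, coeffMap_single, algebraMap_laurentSeries_eq_single]

end Lift

section Closure

variable {L : Type*} [Field L] [Algebra ℚ L] {A : ValuationSubring L}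
variable {k : Type*} [Field k] {π : A →+* k} {N : ℕ} [NeZero N]
variable {r : Place L (FF L N) → Place k (modularFunctionFieldFullC k N)}

/-- every divisor in the closure of the integral principal divisors is the divisor of a function
`u` with a nonzero reduction `ū ∈ F_k`, and `r_* D = div ū` -/
theorem exists_redRel_of_mem_closure (hr : IsPlaceReductionAlong A π N r)
    {D : Divisor L (FF L N)}
    (hD : D ∈ AddSubgroup.closure (integralPrincipalDivisors A π N)) :
    ∃ (u : FF L N) (ū : modularFunctionFieldFullC k N), u ≠ 0 ∧ ū ≠ 0 ∧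
      RedRel A π (FF L N) (u : LaurentSeries L) (ū : LaurentSeries k) ∧
      (∀ P : Place L (FF L N), D P = P.ord u) ∧
      ∀ Q : Place k (modularFunctionFieldFullC k N), Finsupp.mapDomain r D Q = Q.ord ū := by
  induction hD using AddSubgroup.closure_induction with
  | mem E hE =>
    obtain ⟨y, hy, hyk, hne, hEy⟩ := hE
    have hy0 : coeffMap A.subtype y ≠ 0 := by
      intro h0
      have : y = 0 := coeffMap_subtype_injective A (by rw [h0, map_zero])
      exact hne (by rw [this, map_zero])
    refine ⟨⟨coeffMap A.subtype y, hy⟩, ⟨coeffMap π y, hyk⟩, ?_, ?_, ?_, hEy, ?_⟩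
    · intro h; exact hy0 (congrArg Subtype.val h)
    · intro h; exact hne (congrArg Subtype.val h)
    · refine ⟨y, 1, hy, ?_, ?_, ?_, ?_⟩
      · rw [map_one]; exact (FF L N).one_mem
      · rw [map_one]; exact one_ne_zero
      · rw [map_one, mul_one]
      · rw [map_one, mul_one]
    · exact hr.2 y hy hyk hne E hEy
  | zero =>
    refine ⟨1, 1, one_ne_zero, one_ne_zero, redRel_one, fun P => ?_, fun Q => ?_⟩
    · rw [Finsupp.zero_apply, Place.ord_one]
    · rw [Finsupp.mapDomain_zero, Finsupp.zero_apply, Place.ord_one]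
  | add E E' _ _ hE hE' =>
    obtain ⟨u, ū, hu, hū, hred, hord, hordk⟩ := hE
    obtain ⟨u', ū', hu', hū', hred', hord', hordk'⟩ := hE'
    refine ⟨u * u', ū * ū', mul_ne_zero hu hu', mul_ne_zero hū hū', hred.mul hred',
      fun P => ?_, fun Q => ?_⟩
    · rw [Finsupp.add_apply, hord P, hord' P, P.ord_mul hu hu']
    · rw [Finsupp.mapDomain_add, Finsupp.add_apply, hordk Q, hordk' Q, Q.ord_mul hū hū']
  | neg E _ hE =>
    obtain ⟨u, ū, hu, hū, hred, hord, hordk⟩ := hE
    refine ⟨u⁻¹, ū⁻¹, inv_ne_zero hu, inv_ne_zero hū, ?_, fun P => ?_, fun Q => ?_⟩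
    · have := hred.inv (fun h => hū (Subtype.ext h))
      exact this
    · rw [Finsupp.neg_apply, hord P, P.ord_inv]
    · rw [← Finsupp.mapDomain.addMonoidHom_apply, map_neg, Finsupp.mapDomain.addMonoidHom_apply,
        Finsupp.neg_apply, hordk Q, Q.ord_inv]

end Closure

section Main

variable {L : Type*} [Field L] [Algebra ℚ L] {A : ValuationSubring L}
variable {k : Type*} [Field k] {π : A →+* k} {N : ℕ} [NeZero N]

/-- **S18, Tier 1 form** (general `(L, A, k, π)`): the reduction map attached to ANY place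
reduction `r` is injective on `m`-torsion, given (C0) at exponent `m` and "trivial divisor
implies constant" in `F_k`. -/
theorem eq_zero_of_reductionAlong_eq_zero (hπ : Function.Surjective π)
    (hconstk : ∀ g : modularFunctionFieldFullC k N, g ≠ 0 →
      (∀ Q : Place k (modularFunctionFieldFullC k N), Q.ord g = 0) →
      ∃ c : k, g = algebraMap k (modularFunctionFieldFullC k N) c)
    {m : ℕ} (hm : m ≠ 0)
    (hC0 : ∀ z : FF L N, z ≠ 0 → (∀ P : Place L (FF L N), (m : ℤ) ∣ P.ord z) →
      RedRel A π (FF L N) (z : LaurentSeries L) 1 →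
      ∃ (c : L) (w : FF L N), z = algebraMap L (FF L N) c * w ^ m)
    (h : ReductionInputsAlong A π N) (z : Pic0 L (FF L N)) (hmz : m • z = 0)
    (hz : reductionAlong A π N z = 0) : z = 0 := by
  obtain ⟨D, rfl⟩ := Pic0.mk_surjective z
  have hr := h.choose_spec.1
  have hgen := h.choose_spec.2
  set r := h.choose with hrdef
  -- the reduction of `D` is principal
  rw [reductionAlong_mk h D, mk_eq_zero_iff, coe_reductionDegZeroAlong] at hz
  obtain ⟨g, hg0, hg⟩ := hz
  -- `m • D` is principal
  have hmD : Pic0.mk (m • D) = 0 := by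
    have : Pic0.mk (m • D) = m • Pic0.mk D := rfl
    rw [this, hmz]
  rw [mk_eq_zero_iff] at hmD
  obtain ⟨u, ū, hu, hū, hred, hord, hordk⟩ := exists_redRel_of_mem_closure hr (hgen hmD)
  have hcoe : ((m • D : Divisor.degZero (K := L) (F := FF L N)) : Divisor L (FF L N)) =
      m • (D : Divisor L (FF L N)) := rfl
  rw [hcoe] at hord hordk
  -- `ū / g ^ m` has trivial divisor
  have hmap : Finsupp.mapDomain r (m • (D : Divisor L (FF L N))) =
      m • Finsupp.mapDomain r (D : Divisor L (FF L N)) := by
    rw [← Finsupp.mapDomain.addMonoidHom_apply, map_nsmul, Finsupp.mapDomain.addMonoidHom_apply]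
  have hgm0 : g ^ m ≠ 0 := pow_ne_zero _ hg0
  have ht0 : ū / g ^ m ≠ 0 := div_ne_zero hū hgm0
  have htord : ∀ Q : Place k (modularFunctionFieldFullC k N), Q.ord (ū / g ^ m) = 0 := by
    intro Q
    rw [div_eq_mul_inv, Q.ord_mul hū (inv_ne_zero hgm0), Q.ord_inv, ← hordk Q, hmap,
      Finsupp.smul_apply, hg Q, ← zpow_natCast, Q.ord_zpow, nsmul_eq_mul]
    ring
  obtain ⟨cb, hcb⟩ := hconstk _ ht0 htord
  have hcb0 : cb ≠ 0 := by
    rintro rfl
    rw [map_zero] at hcb
    exact ht0 hcb
  have hū_eq : ū = algebraMap k (modularFunctionFieldFullC k N) cb * g ^ m := by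
    rw [← hcb, div_mul_cancel₀ _ hgm0]
  -- lift `g` and `cb`
  obtain ⟨w, hw⟩ := exists_redRel_of_mem_Fk A π N hπ g.2
    (fun h0 => hg0 (Subtype.ext h0))
  obtain ⟨a, rfl⟩ := hπ cb
  have ha0 : (a : L) ≠ 0 := by
    intro h0
    have : a = 0 := Subtype.ext h0
    exact hcb0 (by rw [this, map_zero])
  have hwF : w ∈ FF L N := hw.mem
  have hw0 : w ≠ 0 := hw.ne_zero (fun h0 => hg0 (Subtype.ext h0))
  set wF : FF L N := ⟨w, hwF⟩ with hwFdef
  have hwF0 : wF ≠ 0 := fun h0 => hw0 (congrArg Subtype.val h0)
  have haF0 : algebraMap L (FF L N) (a : L) ≠ 0 := (map_ne_zero _).mpr ha0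
  have hden0 : algebraMap L (FF L N) (a : L) * wF ^ m ≠ 0 :=
    mul_ne_zero haF0 (pow_ne_zero _ hwF0)
  -- the Kummer class `z' = u / (a w^m)` reduces to `1`
  have hredden : RedRel A π (FF L N)
      ((algebraMap L (FF L N) (a : L) * wF ^ m : FF L N) : LaurentSeries L)
      ((algebraMap k (modularFunctionFieldFullC k N) (π a) * g ^ m :
        modularFunctionFieldFullC k N) : LaurentSeries k) :=
    (redRel_algebraMap A π N a).mul (hw.pow m)
  have hz'red : RedRel A π (FF L N) ((u / (algebraMap L (FF L N) (a : L) * wF ^ m) : FF L N) :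
      LaurentSeries L) 1 := by
    have h1 := hred.div hredden (by
      intro h0
      apply hū
      rw [hū_eq]
      exact Subtype.ext h0)
    have h2 : ((ū : LaurentSeries k) /
        ((algebraMap k (modularFunctionFieldFullC k N) (π a) * g ^ m :
          modularFunctionFieldFullC k N) : LaurentSeries k)) = 1 := by
      rw [← hū_eq]
      exact div_self (fun h0 => hū (Subtype.ext h0))
    rw [h2] at h1
    exact h1
  have hz'0 : u / (algebraMap L (FF L N) (a : L) * wF ^ m) ≠ 0 := div_ne_zero hu hden0
  have hz'ord : ∀ P : Place L (FF L N),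
      (m : ℤ) ∣ P.ord (u / (algebraMap L (FF L N) (a : L) * wF ^ m)) := by
    intro P
    rw [div_eq_mul_inv, P.ord_mul hu (inv_ne_zero hden0), P.ord_inv,
      P.ord_mul haF0 (pow_ne_zero _ hwF0), ord_algebraMap_eq_zero P ha0, zero_add,
      ← zpow_natCast, P.ord_zpow, ← hord P, Finsupp.smul_apply, nsmul_eq_mul]
    exact ⟨(D : Divisor L (FF L N)) P - P.ord wF, by ring⟩
  obtain ⟨c', w', hz'⟩ := hC0 _ hz'0 hz'ord hz'red
  -- conclude
  have hrep : IsKummerRep m (Pic0.mk D) u :=
    ⟨hu, D, rfl, fun P => by rw [← hord P, Finsupp.smul_apply, nsmul_eq_mul]⟩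
  refine hrep.eq_zero_of_eq_const_mul_pow hm (c := (a : L) * c') (w := wF * w') ?_
  have : u = (algebraMap L (FF L N) (a : L) * wF ^ m) *
      (u / (algebraMap L (FF L N) (a : L) * wF ^ m)) := by
    rw [mul_div_cancel₀ _ hden0]
  rw [this, hz', map_mul, mul_pow]
  ring

end Main

section S18Shape

set_option synthInstance.maxHeartbeats 400000

/-- **S18 (frozen shape) from (C0) at level `N` and "trivial divisor implies constant" in
`F_k(N)`**.  The hypothesis `h : ReductionInputsModL A N` is the one of the frozen statement. -/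
theorem s18_of_kummerRedInj (N : ℕ) [NeZero N] {ℓ : ℕ} [Fact ℓ.Prime]
    (A : ValuationSubring (AlgebraicClosure ℚ))
    (hconstk : ∀ g : modularFunctionFieldFullC (IsLocalRing.ResidueField A) N, g ≠ 0 →
      (∀ Q : Place (IsLocalRing.ResidueField A)
        (modularFunctionFieldFullC (IsLocalRing.ResidueField A) N), Q.ord g = 0) →
      ∃ c : IsLocalRing.ResidueField A,
        g = algebraMap (IsLocalRing.ResidueField A)
          (modularFunctionFieldFullC (IsLocalRing.ResidueField A) N) c)
    (m : ℕ) (hm : ¬ ℓ ∣ m) (hC0 : KummerRedInj N A m)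
    (h : ModularCurve.ReductionInputsModL A N) (z : ModularCurve.JZero N)
    (hmz : m • z = 0) (hz : ModularCurve.reductionModL A N z = 0) : z = 0 := by
  have hm0 : m ≠ 0 := by
    rintro rfl
    exact hm (dvd_zero ℓ)
  exact eq_zero_of_reductionAlong_eq_zero (A := A) (π := IsLocalRing.residue A) (N := N)
    IsLocalRing.residue_surjective hconstk hm0 hC0 h z hmz hz

end S18Shape

end Fermat.Agent.Gateway.Kummer
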