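/-
P-GATEWAY (c2), helper47: the frozen S18 from the single hypothesis `C0AtGoodLevels`.
Inputs already on main: `Kummer/S18Glue.lean` (formal glue for the abstract `r`),
`Kummer/LevelGlue.lean` + `Descent/*` (helper38/helper64), `FkBasics.hconstk_residueField`
(helper64).  The import closure deliberately avoids the Hecke / (C1) / (Hnorm) files.
-/
import Fermat.Agent.Gateway.Kummer.C0Spec
import Fermat.Agent.Gateway.Kummer.S18Glue
import Fermat.Agent.Gateway.FkBasics.Modular

set_option autoImplicit false

noncomputable section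

namespace Fermat.Agent.Gateway.Kummer

open ModularCurve AlgebraicCurve

/-- **the frozen S18** from (C0) at the good levels -/
theorem s18_of_C0 (h : C0AtGoodLevels) (N : ℕ) [NeZero N] {ℓ : ℕ}
    [Fact ℓ.Prime] (hℓN : ¬ ℓ ∣ N) (A : ValuationSubring (AlgebraicClosure ℚ))
    (hA : A.LiesOverPrime ℓ)
    (hred : ModularCurve.ReductionInputsModL A N) (m : ℕ) (hm : ¬ ℓ ∣ m)
    (z : ModularCurve.JZero N)
    (hmz : m • z = 0) (hz : ModularCurve.reductionModL A N z = 0) :
    z = 0 :=
  s18_of_kummerRedInj N A (Fermat.Agent.Gateway.FkBasics.hconstk_residueField N hℓN A hA) m hm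
    (kummerRedInj_of_C0 h N m ℓ Fact.out
      (fun hd => ((Nat.Prime.dvd_mul Fact.out).mp hd).elim hm hℓN) A hA) hred z hmz hz

end Fermat.Agent.Gateway.Kummer
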