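/-
P-GATEWAY (c2), helper47: every element of the base-changed function field is fixed by an open
subgroup of the Galois group; consequently the Galois action on finite torsion of `Pic0` factors
through a finite extension (via Kummer representatives).
-/
import Fermat.Agent.Gateway.Kummer.Basic
import Fermat.Prelude.Def_ModularCurve_ArithmeticGalois

set_option autoImplicit false

noncomputable section

namespace Fermat.Agent.Gateway.Kummer

open ModularCurve AlgebraicCurve HahnSeries

section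

variable {L : Type*} [Field L] [Algebra ℚ L] [Algebra.IsAlgebraic ℚ L]
variable (F₀ : IntermediateField ℚ (LaurentSeries ℚ))

/-- every element of `laurentBaseChange L F₀` is fixed (coefficientwise) by all automorphisms
fixing a suitable finite extension of `ℚ` -/
theorem exists_finiteDimensional_fixing {x : LaurentSeries L} (hx : x ∈ laurentBaseChange L F₀) :
    ∃ K : IntermediateField ℚ L, FiniteDimensional ℚ K ∧
      ∀ σ : L ≃ₐ[ℚ] L, (∀ a ∈ K, σ a = a) → coeffMap (σ : L →+* L) x = x := by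
  rw [mem_laurentBaseChange_iff] at hx
  induction hx using Subfield.closure_induction with
  | mem y hy =>
      rcases hy with ⟨a, rfl⟩ | ⟨z, _, rfl⟩
      · refine ⟨IntermediateField.adjoin ℚ {a}, ?_, fun σ hσ => ?_⟩
        · exact IntermediateField.adjoin.finiteDimensional
            (Algebra.IsIntegral.isIntegral (R := ℚ) a)
        · rw [coeffMap_algebraMap]
          congr 1
          exact hσ a (IntermediateField.mem_adjoin_simple_self ℚ a)
      · exact ⟨⊥, inferInstance, fun σ _ => coeffMap_coeffEmb σ z⟩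
  | one => exact ⟨⊥, inferInstance, fun σ _ => map_one _⟩
  | add x y _ _ hx hy =>
      obtain ⟨K₁, h₁, f₁⟩ := hx
      obtain ⟨K₂, h₂, f₂⟩ := hy
      refine ⟨K₁ ⊔ K₂, IntermediateField.finiteDimensional_sup K₁ K₂, fun σ hσ => ?_⟩
      rw [map_add, f₁ σ fun a ha => hσ a ((le_sup_left : K₁ ≤ K₁ ⊔ K₂) ha),
        f₂ σ fun a ha => hσ a ((le_sup_right : K₂ ≤ K₁ ⊔ K₂) ha)]
  | neg x _ hx =>
      obtain ⟨K₁, h₁, f₁⟩ := hx
      exact ⟨K₁, h₁, fun σ hσ => by rw [map_neg, f₁ σ hσ]⟩
  | inv x _ hx =>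
      obtain ⟨K₁, h₁, f₁⟩ := hx
      exact ⟨K₁, h₁, fun σ hσ => by rw [map_inv₀, f₁ σ hσ]⟩
  | mul x y _ _ hx hy =>
      obtain ⟨K₁, h₁, f₁⟩ := hx
      obtain ⟨K₂, h₂, f₂⟩ := hy
      refine ⟨K₁ ⊔ K₂, IntermediateField.finiteDimensional_sup K₁ K₂, fun σ hσ => ?_⟩
      rw [map_mul, f₁ σ fun a ha => hσ a ((le_sup_left : K₁ ≤ K₁ ⊔ K₂) ha),
        f₂ σ fun a ha => hσ a ((le_sup_right : K₂ ≤ K₁ ⊔ K₂) ha)]

/-- each torsion class is fixed by all automorphisms fixing a suitable finite extension -/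
theorem exists_finiteDimensional_fixing_class {m : ℕ} (hm : m ≠ 0)
    {x : Pic0 L (laurentBaseChange L F₀)} (hx : (m : ℤ) • x = 0) :
    ∃ K : IntermediateField ℚ L, FiniteDimensional ℚ K ∧
      ∀ σ : L ≃ₐ[ℚ] L, (∀ a ∈ K, σ a = a) → σ • x = x := by
  obtain ⟨u, hu⟩ := exists_isKummerRep hx
  obtain ⟨K, hK, hfix⟩ := exists_finiteDimensional_fixing F₀ u.2
  refine ⟨K, hK, fun σ hσ => ?_⟩
  set g := arithmeticGalois F₀ σ with hg
  show g • x = x
  have hgu : g • u = u := Subtype.ext (hfix σ hσ)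
  have h4 : IsKummerRep m (g • x - x) ((g • u) / u) := (hu.smul g).div hu
  rw [hgu, div_self hu.ne_zero] at h4
  exact sub_eq_zero.mp (h4.eq_zero_of_eq_pow hm (w := 1) (one_pow m).symm)

/-- if the `m`-torsion is finite, the Galois action on it factors through a finite extension -/
theorem exists_finiteDimensional_fixing_torsion {m : ℕ} (hm : m ≠ 0)
    (hfin : {x : Pic0 L (laurentBaseChange L F₀) | (m : ℤ) • x = 0}.Finite) :
    ∃ K : IntermediateField ℚ L, FiniteDimensional ℚ K ∧
      ∀ σ : L ≃ₐ[ℚ] L, (∀ a ∈ K, σ a = a) →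
        ∀ x : Pic0 L (laurentBaseChange L F₀), (m : ℤ) • x = 0 → σ • x = x := by
  classical
  choose! K hK hfix using fun (x : Pic0 L (laurentBaseChange L F₀)) (hx : (m : ℤ) • x = 0) =>
    exists_finiteDimensional_fixing_class F₀ hm hx
  refine ⟨⨆ x ∈ hfin.toFinset, K x, ?_, fun σ hσ x hx => ?_⟩
  · haveI : ∀ x : hfin.toFinset, FiniteDimensional ℚ (K x) := fun x =>
      hK x ((Set.Finite.mem_toFinset hfin).mp x.2)
    have : (⨆ x ∈ hfin.toFinset, K x) = ⨆ x : hfin.toFinset, K x := by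
      rw [iSup_subtype']
    rw [this]
    exact IntermediateField.finiteDimensional_iSup_of_finite
  · refine hfix x hx σ fun a ha => hσ a ?_
    have hle : K x ≤ ⨆ y ∈ hfin.toFinset, K y :=
      le_iSup₂_of_le x ((Set.Finite.mem_toFinset hfin).mpr hx) le_rfl
    exact hle ha

end

end Fermat.Agent.Gateway.Kummer
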