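/-
P-GATEWAY (c2), helper47: the exports E5 (TorsionUnramified), E6 (TorsionEichlerShimura),
E7 (TorsionGalLevel) of the GATEWAY plan, in exactly the shapes of
`Fermat.Agent.Gateway.S31Red` (helper23, `Gateway/S31/FromExport.lean`; the conclusions below are
the unfolded bodies of those definitions), from the three hypotheses C0 / C1 / Hnorm.
-/
import Fermat.Agent.Gateway.Kummer.Final
import Fermat.Agent.Gateway.Kummer.GalLevel

set_option autoImplicit false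
set_option linter.style.haveILetI false

noncomputable section

namespace Fermat.Agent.Gateway.Kummer

open ModularCurve AlgebraicCurve HahnSeries

local notation "Qb" => AlgebraicClosure ℚ
local notation "Γℚ" => (AlgebraicClosure ℚ ≃ₐ[ℚ] AlgebraicClosure ℚ)

section RootOfUnity

variable {L : Type*} [Field L]

/-- an `ℓ`-th root of unity lies in every valuation subring, as a unit, and reduces to `1` when
the residue characteristic is `ℓ` -/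
theorem exists_unit_of_pow_eq_one (A : ValuationSubring L) {ℓ : ℕ} (hℓ : ℓ.Prime)
    [CharP (IsLocalRing.ResidueField A) ℓ] (ζ : Lˣ) (hζ : ζ ^ ℓ = 1) :
    ∃ ζA : Aˣ, Units.map (A.subtype : A →* L) ζA = ζ ∧ IsLocalRing.residue A ζA = 1 := by
  haveI : Fact ℓ.Prime := ⟨hℓ⟩
  have hmem : ∀ ξ : Lˣ, ξ ^ ℓ = 1 → (ξ : L) ∈ A := by
    intro ξ hξ
    rcases A.mem_or_inv_mem (ξ : L) with h | h
    · exact h
    · have h1 : (ξ : L) = ((ξ : L)⁻¹) ^ (ℓ - 1) := by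
        have h2 : (ξ : L) ^ ℓ = 1 := by rw [← Units.val_pow_eq_pow_val, hξ, Units.val_one]
        have h3 : (ξ : L) ^ (ℓ - 1) * ξ = 1 := by
          rw [← pow_succ, Nat.sub_add_cancel hℓ.one_le, h2]
        rw [inv_pow]
        exact eq_inv_of_mul_eq_one_right h3
      rw [h1]
      exact pow_mem h _
  have hinv : (ζ⁻¹) ^ ℓ = 1 := by rw [inv_pow, hζ, inv_one]
  let ζA : Aˣ :=
    { val := ⟨ζ, hmem ζ hζ⟩
      inv := ⟨((ζ⁻¹ : Lˣ) : L), hmem ζ⁻¹ hinv⟩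
      val_inv := by ext; simp
      inv_val := by ext; simp }
  refine ⟨ζA, Units.ext rfl, ?_⟩
  have hpow : (IsLocalRing.residue A (ζA : A)) ^ ℓ = 1 := by
    rw [← map_pow]
    have : ((ζA : A)) ^ ℓ = 1 := by
      ext
      show (ζ : L) ^ ℓ = 1
      rw [← Units.val_pow_eq_pow_val, hζ, Units.val_one]
    rw [this, map_one]
  have h0 : (IsLocalRing.residue A (ζA : A) - 1) ^ ℓ = 0 := by
    rw [sub_pow_char, one_pow, hpow, sub_self]
  exact sub_eq_zero.mp (pow_eq_zero_iff hℓ.ne_zero |>.mp h0)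

end RootOfUnity

section Export

variable (N : ℕ) [NeZero N]

/-- E5 (shape of `S31Red.TorsionUnramified N`) -/
theorem torsionUnramified
    (hnorm : ∀ ℓ : ℕ, ℓ.Prime → ¬ ℓ ∣ N → ∀ A : ValuationSubring Qb, A.LiesOverPrime ℓ →
      GaussNormalisable N A)
    (hC0 : ∀ m ℓ : ℕ, ℓ.Prime → ¬ ℓ ∣ m * N → ∀ A : ValuationSubring Qb, A.LiesOverPrime ℓ →
      KummerRedInj N A m) :
    ∀ (m ℓ : ℕ), ℓ.Prime → ¬ ℓ ∣ m * N → ∀ A : ValuationSubring Qb, A.LiesOverPrime ℓ →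
      ∀ σ ∈ A.inertiaSubgroupIn ℚ, ∀ x : JZero N, m • x = 0 → σ • x = x := by
  intro m ℓ hℓ hdvd A hA σ hσ x hx
  have hm : m ≠ 0 := by rintro rfl; exact hdvd (by simp)
  have hℓN : ¬ ℓ ∣ N := fun h => hdvd (Dvd.dvd.mul_left h m)
  have hx' : (m : ℤ) • x = 0 := by rw [natCast_zsmul]; exact hx
  exact inertia_smul_eq_of_torsion N A hm (hnorm ℓ hℓ hℓN A hA) (hC0 m ℓ hℓ hdvd A hA) σ hσ hx'

/-- E6 (shape of `S31Red.TorsionEichlerShimura N`) -/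
theorem torsionEichlerShimura
    (hHecke : ∀ ℓ : ℕ, (hℓ : ℓ.Prime) → ¬ ℓ ∣ N →
      haveI : NeZero ℓ := ⟨hℓ.ne_zero⟩; HeckeInputsAlong Qb N ℓ)
    (hC1 : ∀ ℓ : ℕ, (hℓ : ℓ.Prime) → ¬ ℓ ∣ N →
      haveI : NeZero ℓ := ⟨hℓ.ne_zero⟩; ∃ ζ : Qbˣ, ζ ^ ℓ = 1 ∧ NormQExpFormula Qb N ℓ ζ)
    (hnorm : ∀ ℓ : ℕ, ℓ.Prime → ¬ ℓ ∣ N → ∀ A : ValuationSubring Qb, A.LiesOverPrime ℓ →
      GaussNormalisable N A)
    (hC0 : ∀ m ℓ : ℕ, ℓ.Prime → ¬ ℓ ∣ m * N → ∀ A : ValuationSubring Qb, A.LiesOverPrime ℓ →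
      KummerRedInj N A m) :
    ∀ (m ℓ : ℕ) (hℓ : ℓ.Prime), ¬ ℓ ∣ m * N → ∀ A : ValuationSubring Qb, A.LiesOverPrime ℓ →
      ∀ φ : Γℚ, A.IsFrobeniusAt φ ℓ → ∀ x : JZero N, m • x = 0 →
        haveI : NeZero ℓ := ⟨hℓ.ne_zero⟩
        φ • φ • x - heckeOperatorAlong Qb N ℓ (φ • x) + ℓ • x = 0 := by
  intro m ℓ hℓ hdvd A hA φ hφ x hx
  haveI : NeZero ℓ := ⟨hℓ.ne_zero⟩
  haveI : Fact ℓ.Prime := ⟨hℓ⟩
  have hm : m ≠ 0 := by rintro rfl; exact hdvd (by simp)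
  have hℓN : ¬ ℓ ∣ N := fun h => hdvd (Dvd.dvd.mul_left h m)
  have hx' : (m : ℤ) • x = 0 := by rw [natCast_zsmul]; exact hx
  haveI : CharP (IsLocalRing.ResidueField A) ℓ := charP_residueField hℓ A hA
  obtain ⟨ζ, hζ, hform⟩ := hC1 ℓ hℓ hℓN
  obtain ⟨ζA, hζA, hres⟩ := exists_unit_of_pow_eq_one A hℓ ζ hζ
  exact frobenius_quadratic_of_torsion N A ℓ hm hA (hHecke ℓ hℓ hℓN) ζA hres (hζA ▸ hform)
    (hnorm ℓ hℓ hℓN A hA) (hC0 m ℓ hℓ hdvd A hA) φ hφ hx'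

omit [NeZero N] in
/-- E7 (shape of `S31Red.TorsionGalLevel N`), from finiteness of the torsion -/
theorem torsionGalLevel
    (hfin : ∀ m : ℕ, 0 < m → {x : JZero N | m • x = 0}.Finite) :
    ∀ m : ℕ, 0 < m → ∃ K : IntermediateField ℚ Qb, FiniteDimensional ℚ K ∧
      ∀ σ : Γℚ, (∀ x ∈ K, σ x = x) → ∀ x : JZero N, m • x = 0 → σ • x = x := by
  intro m hm
  have hfin' : {x : JZero N | (m : ℤ) • x = 0}.Finite := by
    refine (hfin m hm).subset fun x hx => ?_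
    simpa [natCast_zsmul] using hx
  haveI : Algebra.IsAlgebraic ℚ Qb := AlgebraicClosure.isAlgebraic ℚ
  obtain ⟨K, hK, hfix⟩ :=
    exists_finiteDimensional_fixing_torsion (L := Qb) (modularFunctionFieldFull N) hm.ne' hfin'
  exact ⟨K, hK, fun σ hσ x hx => hfix σ hσ x (by rw [natCast_zsmul]; exact hx)⟩

end Export

end Fermat.Agent.Gateway.Kummer
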