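/-
P-GATEWAY (c2), helper47: ASSEMBLY of E5 / E6.  All inputs of the Kummer route except (C0) are
proved on main:
* (Hnorm)  `GoodRed.gaussNormalisable`            (helper82, GoodRed/GaussNorm.lean)
* (C1)     `Hecke.C1Qbar.exists_normQExpFormula`  (helper46/19/24/20; also helper44 ESC/NormQExp)
* (HK1)    `Hecke.C1Qbar.heckeInputs_Qbar`        (helper64/helper20)
* descent  `Descent.kummer_descent`               (helper38/helper64), `Kummer/LevelGlue.lean`
So E5 (`S31Red.TorsionUnramified N`) and E6 (`S31Red.TorsionEichlerShimura N`) follow from the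
SINGLE hypothesis `C0AtGoodLevels` (`Kummer/C0Spec.lean`).
-/
import Fermat.Agent.Gateway.Kummer.C0Spec
import Fermat.Agent.Gateway.Kummer.Export
import Fermat.Agent.Gateway.Hecke.C1Qbar
import Fermat.Agent.Gateway.GoodRed.GaussNorm
import Fermat.Agent.Gateway.S31.FromExport
import Fermat.Agent.Gateway.Export.Contract

set_option autoImplicit false

noncomputable section

namespace Fermat.Agent.Gateway.Kummer

open ModularCurve AlgebraicCurve

/-- **E5** from (C0) at the good levels -/
theorem torsionUnramified_of_C0 (h : C0AtGoodLevels) (N : ℕ) [NeZero N] :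
    Fermat.Agent.Gateway.S31Red.TorsionUnramified N :=
  torsionUnramified N (Fermat.Agent.Gateway.GoodRed.gaussNormalisable N)
    (fun m ℓ hℓ hdvd A hA => kummerRedInj_of_C0 h N m ℓ hℓ hdvd A hA)

/-- **E6** from (C0) at the good levels -/
theorem torsionEichlerShimura_of_C0 (h : C0AtGoodLevels) (N : ℕ) [NeZero N] :
    Fermat.Agent.Gateway.S31Red.TorsionEichlerShimura N :=
  torsionEichlerShimura N (Fermat.Agent.Gateway.Hecke.C1Qbar.heckeInputs_Qbar N)
    (Fermat.Agent.Gateway.Hecke.C1Qbar.exists_normQExpFormula N)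
    (Fermat.Agent.Gateway.GoodRed.gaussNormalisable N)
    (fun m ℓ hℓ hdvd A hA => kummerRedInj_of_C0 h N m ℓ hℓ hdvd A hA)

/-- **E5** in the shape of helper88's contract `Export.UnramifiedTorsion N` -/
theorem unramifiedTorsion_of_C0 (h : C0AtGoodLevels) (N : ℕ) [NeZero N] :
    Fermat.Agent.Gateway.Export.UnramifiedTorsion N := by
  intro m ℓ hℓ hm hN A hA σ hσ x hx
  have hdvd : ¬ ℓ ∣ m * N := fun hd => ((Nat.Prime.dvd_mul hℓ).mp hd).elim hm hN
  have hx' : m • x = 0 := by
    have := Pic0.mem_torsion.mp hx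
    rwa [natCast_zsmul] at this
  exact torsionUnramified_of_C0 h N m ℓ hℓ hdvd A hA σ hσ x hx'

/-- **E6** in the shape of helper88's contract `Export.EichlerShimuraTorsion N` -/
theorem eichlerShimuraTorsion_of_C0 (h : C0AtGoodLevels) (N : ℕ) [NeZero N] :
    Fermat.Agent.Gateway.Export.EichlerShimuraTorsion N := by
  intro m ℓ hℓ hm hN A hA σ hσ x hx
  have hdvd : ¬ ℓ ∣ m * N := fun hd => ((Nat.Prime.dvd_mul hℓ).mp hd).elim hm hN
  have hx' : m • x = 0 := by
    have := Pic0.mem_torsion.mp hx
    rwa [natCast_zsmul] at this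
  have := torsionEichlerShimura_of_C0 h N m ℓ hℓ hdvd A hA σ hσ x hx'
  rw [natCast_zsmul]
  exact this

end Fermat.Agent.Gateway.Kummer
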